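/-
T1-B (helper9): discrete valuation rings with residue field `κ = P/𝔪`.

`𝔓 = (P, p)` a place of `ℚ̄` over `p`, `I` its inertia group, `H ≤ I` of finite index.  The fixed
field `L_H := ℚ̄^H` (a finite extension of the inertia field `K0 = ℚ̄^I`) carries the valuation
ring `O_H := P ∩ L_H`, which is a DISCRETE valuation ring whose residue map `O_H → κ := P/𝔪_P` is
SURJECTIVE (`tbFixO_dvr`, `tbFixRes_surjective`).  Every finite subset of `ℚ̄` lies in some `L_H`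
(`tb_exists_finiteIndex_fix`).  These are the bases `(L, O, π)` to which the good-reduction package
T1-A is applied.
-/
import Fermat.Agent.Lib.TW.LF.Unr
import Fermat.Agent.Lib.TW.Flat.BaseRing
import Fermat.Agent.Lib.TW.Flat.Char

set_option autoImplicit false
set_option linter.style.haveILetI false
set_option linter.unusedSectionVars false

namespace Fermat.Agent.T1

noncomputable section

open Fermat.Agent.TW Fermat.Agent.S05Lib

local notation "Qb" => AlgebraicClosure ℚ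
local notation "GQ" => (AlgebraicClosure ℚ ≃ₐ[ℚ] AlgebraicClosure ℚ)

variable (𝔓 : FFPlace) (H : Subgroup 𝔓.I)

/-- the fixed field of a subgroup of the inertia group -/
def tbFix : IntermediateField ℚ Qb := IntermediateField.fixedField (H.map 𝔓.I.subtype)

theorem mem_tbFix (z : Qb) : z ∈ tbFix 𝔓 H ↔ ∀ σ ∈ H, ((σ : 𝔓.I) : GQ) z = z := by
  unfold tbFix
  rw [IntermediateField.mem_fixedField_iff]
  constructor
  · intro h σ hσ
    exact h _ ⟨σ, hσ, rfl⟩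
  · rintro h _ ⟨σ, hσ, rfl⟩
    exact h σ hσ

theorem K0_le_tbFix : 𝔓.K0 ≤ tbFix 𝔓 H := by
  intro z hz
  rw [mem_tbFix]
  intro σ _
  exact (𝔓.mem_K0_iff z).mp hz _ σ.2

/-- the valuation ring `P ∩ L_H` -/
def tbFixO : ValuationSubring ↥(tbFix 𝔓 H) := 𝔓.P.comap (algebraMap ↥(tbFix 𝔓 H) Qb)

theorem mem_tbFixO (z : ↥(tbFix 𝔓 H)) : z ∈ tbFixO 𝔓 H ↔ 𝔓.v.Ge (z : Qb) 0 := by
  unfold tbFixO
  rw [ValuationSubring.mem_comap, ← 𝔓.mem_P_iff]
  rfl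

theorem tb_mem_maximalIdeal_iff (a : ↥𝔓.P) :
    a ∈ IsLocalRing.maximalIdeal ↥𝔓.P ↔ 𝔓.v.Gt (a : Qb) 0 := by
  rw [IsLocalRing.mem_maximalIdeal, mem_nonunits_iff]
  have haP : 𝔓.v.Ge (a : Qb) 0 := (𝔓.mem_P_iff _).mp a.2
  constructor
  · intro hnu
    rcases 𝔓.v.le_or_gt (a : Qb) 0 with hle | hgt
    · exfalso
      apply hnu
      have h0 : 𝔓.v.Is (a : Qb) 0 := by
        refine ⟨hle.1, le_antisymm hle.2 ?_⟩
        rcases haP with h | h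
        · exact absurd h hle.1
        · exact h
      have hinv : (a : Qb)⁻¹ ∈ 𝔓.P := by
        rw [𝔓.mem_P_iff]
        have := h0.inv
        rw [neg_zero] at this
        exact this.ge
      refine isUnit_iff_exists_inv.mpr ⟨⟨(a : Qb)⁻¹, hinv⟩, Subtype.ext ?_⟩
      show (a : Qb) * (a : Qb)⁻¹ = 1
      exact mul_inv_cancel₀ h0.1
    · exact hgt
  · intro hgt hu
    obtain ⟨b, hb⟩ := isUnit_iff_exists_inv.mp hu
    have hab : (a : Qb) * (b : Qb) = 1 := by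
      have := congrArg Subtype.val hb
      simpa using this
    have hbP : 𝔓.v.Ge (b : Qb) 0 := (𝔓.mem_P_iff _).mp b.2
    have h1 := hgt.mul_ge hbP
    rw [hab, add_zero] at h1
    exact QVal.is_one.not_gt h1 le_rfl

/-- the valuation of `P` has rank one -/
theorem tb_arch (a : ↥𝔓.P) (ha : a ∈ IsLocalRing.maximalIdeal ↥𝔓.P) (c : ↥𝔓.P) (hc : c ≠ 0) :
    ∃ n : ℕ, c ∣ a ^ n := by
  have hc0 : (c : Qb) ≠ 0 := fun h => hc (Subtype.ext h)
  rcases eq_or_ne a 0 with rfl | ha0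
  · exact ⟨1, by rw [pow_one]; exact dvd_zero c⟩
  have ha0' : (a : Qb) ≠ 0 := fun h => ha0 (Subtype.ext h)
  have hgt := (tb_mem_maximalIdeal_iff 𝔓 a).mp ha
  have hpos : 0 < 𝔓.v.ord (a : Qb) := hgt.resolve_left ha0'
  obtain ⟨n, hn⟩ := Archimedean.arch (𝔓.v.ord (c : Qb)) hpos
  refine ⟨n, ?_⟩
  have hq : (a : Qb) ^ n / (c : Qb) ∈ 𝔓.P := by
    rw [𝔓.mem_P_iff]
    have h1 := ((QVal.is_ord (v := 𝔓.v) ha0').pow n).div (QVal.is_ord (v := 𝔓.v) hc0)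
    refine h1.ge' ?_
    rw [nsmul_eq_mul] at hn
    linarith
  refine ⟨⟨_, hq⟩, Subtype.ext ?_⟩
  show (a : Qb) ^ n = (c : Qb) * ((a : Qb) ^ n / (c : Qb))
  field_simp

section DVR

variable [H.FiniteIndex]

theorem tb_index_mul_ord (z : ↥(tbFix 𝔓 H)) (hz : z ≠ 0) :
    ∃ n : ℤ, (H.index : ℚ) * 𝔓.v.ord (z : Qb) = n := by
  refine FFPlace.Unr.index_mul_ord_int 𝔓 𝔓.lf_unr H (fun h => hz (Subtype.ext h)) ?_
  exact (mem_tbFix 𝔓 H _).mp z.2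

theorem tb_index_pos : 0 < H.index := Nat.pos_of_ne_zero Subgroup.FiniteIndex.index_ne_zero

/-- elements of `O_H` of valuation `0` are units -/
theorem tb_isUnit_of_ord_eq_zero (x : ↥(tbFixO 𝔓 H)) (hx : 𝔓.v.Is ((x : ↥(tbFix 𝔓 H)) : Qb) 0) :
    IsUnit x := by
  have hinv : ((x : ↥(tbFix 𝔓 H))⁻¹ : ↥(tbFix 𝔓 H)) ∈ tbFixO 𝔓 H := by
    rw [mem_tbFixO]
    have := hx.inv
    rw [neg_zero] at this
    have h2 : (((x : ↥(tbFix 𝔓 H))⁻¹ : ↥(tbFix 𝔓 H)) : Qb) = ((x : ↥(tbFix 𝔓 H)) : Qb)⁻¹ := rfl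
    rw [h2]
    exact this.ge
  refine isUnit_iff_exists_inv.mpr ⟨⟨_, hinv⟩, Subtype.ext ?_⟩
  show (x : ↥(tbFix 𝔓 H)) * (x : ↥(tbFix 𝔓 H))⁻¹ = 1
  refine mul_inv_cancel₀ (fun h0 => hx.1 ?_)
  rw [h0]; rfl

/-- `O_H = P ∩ L_H` is a discrete valuation ring -/
theorem tbFixO_dvr : IsDiscreteValuationRing ↥(tbFixO 𝔓 H) := by
  classical
  set d := H.index with hd
  have hdpos : (0 : ℚ) < d := by exact_mod_cast tb_index_pos 𝔓 H
  -- the set of positive values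
  let S : Set ℕ := {n | 0 < n ∧ ∃ z : ↥(tbFix 𝔓 H), z ≠ 0 ∧ (d : ℚ) * 𝔓.v.ord (z : Qb) = n}
  have hSne : S.Nonempty := by
    refine ⟨d, tb_index_pos 𝔓 H, ((𝔓.p : ℕ) : ↥(tbFix 𝔓 H)), ?_, ?_⟩
    · exact_mod_cast 𝔓.hp.ne_zero
    · have : ((((𝔓.p : ℕ) : ↥(tbFix 𝔓 H)) : ↥(tbFix 𝔓 H)) : Qb) = (𝔓.p : Qb) := by
        simp
      rw [this, 𝔓.is_p.2, mul_one]
  have he₀S := Nat.sInf_mem hSne
  set e₀ := sInf S with he₀
  obtain ⟨he₀pos, ϖ, hϖ0, hϖ⟩ := he₀S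
  have hmin : ∀ n ∈ S, e₀ ≤ n := fun n hn => Nat.sInf_le hn
  have hϖis : 𝔓.v.Is (ϖ : Qb) ((e₀ : ℚ) / d) := by
    refine ⟨fun h => hϖ0 (Subtype.ext h), ?_⟩
    field_simp
    linarith
  have hϖO : ϖ ∈ tbFixO 𝔓 H := by
    rw [mem_tbFixO]
    exact hϖis.ge' (by positivity)
  -- values of nonzero elements of `O_H`
  have hval : ∀ x : ↥(tbFixO 𝔓 H), x ≠ 0 → ∃ n : ℕ,
      (d : ℚ) * 𝔓.v.ord ((x : ↥(tbFix 𝔓 H)) : Qb) = n := by
    intro x hx0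
    have hx0' : (x : ↥(tbFix 𝔓 H)) ≠ 0 := fun h => hx0 (Subtype.ext h)
    obtain ⟨n, hn⟩ := tb_index_mul_ord 𝔓 H (x : ↥(tbFix 𝔓 H)) hx0'
    have hge : 𝔓.v.Ge ((x : ↥(tbFix 𝔓 H)) : Qb) 0 := (mem_tbFixO 𝔓 H _).mp x.2
    have hge' : (0 : ℚ) ≤ 𝔓.v.ord ((x : ↥(tbFix 𝔓 H)) : Qb) := by
      rcases hge with h | h
      · exact absurd (Subtype.ext h) hx0'
      · exact h
    have hn0 : (0 : ℤ) ≤ n := by
      have : (0 : ℚ) ≤ (n : ℚ) := by rw [← hn]; positivity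
      exact_mod_cast this
    refine ⟨n.toNat, ?_⟩
    rw [hn]
    have : ((n.toNat : ℕ) : ℤ) = n := Int.toNat_of_nonneg hn0
    exact_mod_cast this.symm
  -- factorisation `x = ϖ ^ q * unit`
  have hfac : ∀ x : ↥(tbFixO 𝔓 H), x ≠ 0 → ∃ q : ℕ, Associated ((⟨ϖ, hϖO⟩ : ↥(tbFixO 𝔓 H)) ^ q) x := by
    intro x hx0
    have hx0' : (x : ↥(tbFix 𝔓 H)) ≠ 0 := fun h => hx0 (Subtype.ext h)
    have hx0'' : ((x : ↥(tbFix 𝔓 H)) : Qb) ≠ 0 := fun h => hx0' (Subtype.ext h)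
    obtain ⟨n, hn⟩ := hval x hx0
    set q := n / e₀ with hq
    set r := n % e₀ with hr
    have hnqr : n = e₀ * q + r := (Nat.div_add_mod n e₀).symm
    have hrlt : r < e₀ := Nat.mod_lt n he₀pos
    -- `u = x / ϖ ^ q`
    set u : ↥(tbFix 𝔓 H) := (x : ↥(tbFix 𝔓 H)) / ϖ ^ q with hu
    have hu0 : u ≠ 0 := div_ne_zero hx0' (pow_ne_zero q hϖ0)
    have hucoe : (u : Qb) = ((x : ↥(tbFix 𝔓 H)) : Qb) / (ϖ : Qb) ^ q := rfl
    have huis : 𝔓.v.Is (u : Qb) ((r : ℚ) / d) := by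
      rw [hucoe]
      have h1 : 𝔓.v.Is ((x : ↥(tbFix 𝔓 H)) : Qb) ((n : ℚ) / d) :=
        ⟨hx0'', by field_simp; linarith⟩
      have h2 := h1.div (hϖis.pow q)
      refine h2.congr ?_
      rw [hnqr]
      push_cast
      field_simp
      ring
    have hr0 : r = 0 := by
      by_contra hr0
      have hrS : r ∈ S := by
        refine ⟨Nat.pos_of_ne_zero hr0, u, hu0, ?_⟩
        rw [huis.2]
        field_simp
      have := hmin r hrS
      omega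
    rw [hr0, Nat.cast_zero, zero_div] at huis
    have huO : u ∈ tbFixO 𝔓 H := by
      rw [mem_tbFixO]; exact huis.ge
    have huunit := tb_isUnit_of_ord_eq_zero 𝔓 H ⟨u, huO⟩ huis
    refine ⟨q, ?_⟩
    obtain ⟨w, hw⟩ := huunit
    refine ⟨w, ?_⟩
    rw [hw]
    apply Subtype.ext
    show ϖ ^ q * u = (x : ↥(tbFix 𝔓 H))
    rw [hu, mul_div_cancel₀ _ (pow_ne_zero q hϖ0)]
  -- irreducibility of `ϖ`
  have hirr : Irreducible (⟨ϖ, hϖO⟩ : ↥(tbFixO 𝔓 H)) := by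
    refine ⟨?_, ?_⟩
    · intro hu
      obtain ⟨b, hb⟩ := isUnit_iff_exists_inv.mp hu
      have hab : (ϖ : Qb) * ((b : ↥(tbFix 𝔓 H)) : Qb) = 1 := by
        have := congrArg (fun t : ↥(tbFixO 𝔓 H) => ((t : ↥(tbFix 𝔓 H)) : Qb)) hb
        simpa using this
      have hbP : 𝔓.v.Ge ((b : ↥(tbFix 𝔓 H)) : Qb) 0 := (mem_tbFixO 𝔓 H _).mp b.2
      have h1 := (hϖis.gt (by positivity : (0 : ℚ) < (e₀ : ℚ) / d)).mul_ge hbP
      rw [hab, add_zero] at h1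
      exact QVal.is_one.not_gt h1 le_rfl
    · intro a b hab
      have ha0 : a ≠ 0 := by
        rintro rfl
        rw [zero_mul] at hab
        exact hϖ0 (congrArg Subtype.val hab)
      have hb0 : b ≠ 0 := by
        rintro rfl
        rw [mul_zero] at hab
        exact hϖ0 (congrArg Subtype.val hab)
      obtain ⟨na, hna⟩ := hval a ha0
      obtain ⟨nb, hnb⟩ := hval b hb0
      have ha0' : ((a : ↥(tbFix 𝔓 H)) : Qb) ≠ 0 := fun h => ha0 (Subtype.ext (Subtype.ext h))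
      have hb0' : ((b : ↥(tbFix 𝔓 H)) : Qb) ≠ 0 := fun h => hb0 (Subtype.ext (Subtype.ext h))
      have hprod : (ϖ : Qb) = ((a : ↥(tbFix 𝔓 H)) : Qb) * ((b : ↥(tbFix 𝔓 H)) : Qb) := by
        have := congrArg (fun t : ↥(tbFixO 𝔓 H) => ((t : ↥(tbFix 𝔓 H)) : Qb)) hab
        simpa using this
      have hsum : (e₀ : ℚ) = na + nb := by
        have h1 := ((QVal.is_ord (v := 𝔓.v) ha0').mul (QVal.is_ord (v := 𝔓.v) hb0')).2
        rw [← hprod, hϖis.2] at h1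
        rw [← hna, ← hnb, ← mul_add, ← h1]
        field_simp
      have hsum' : e₀ = na + nb := by exact_mod_cast hsum
      have hcase : na = 0 ∨ nb = 0 := by
        by_contra hcon
        push Not at hcon
        have h1 : na ∈ S := ⟨Nat.pos_of_ne_zero hcon.1, (a : ↥(tbFix 𝔓 H)),
          fun h => ha0 (Subtype.ext h), hna⟩
        have h2 : nb ∈ S := ⟨Nat.pos_of_ne_zero hcon.2, (b : ↥(tbFix 𝔓 H)),
          fun h => hb0 (Subtype.ext h), hnb⟩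
        have := hmin na h1
        have := hmin nb h2
        omega
      rcases hcase with h | h
      · left
        refine tb_isUnit_of_ord_eq_zero 𝔓 H a ⟨ha0', ?_⟩
        rw [h, Nat.cast_zero] at hna
        rcases mul_eq_zero.mp hna with h' | h'
        · exact absurd h' hdpos.ne'
        · exact h'
      · right
        refine tb_isUnit_of_ord_eq_zero 𝔓 H b ⟨hb0', ?_⟩
        rw [h, Nat.cast_zero] at hnb
        rcases mul_eq_zero.mp hnb with h' | h'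
        · exact absurd h' hdpos.ne'
        · exact h'
  exact IsDiscreteValuationRing.ofHasUnitMulPowIrreducibleFactorization
    ⟨⟨ϖ, hϖO⟩, hirr, fun {x} hx => hfac x hx⟩

end DVR

/-- the inclusion `O_H → P` -/
def tbFixIncl : ↥(tbFixO 𝔓 H) →+* ↥𝔓.P :=
  ((algebraMap ↥(tbFix 𝔓 H) Qb).comp (tbFixO 𝔓 H).subtype).codRestrict 𝔓.P.toSubring
    (fun z => (𝔓.mem_P_iff _).mpr ((mem_tbFixO 𝔓 H z).mp z.2))

@[simp] theorem coe_tbFixIncl (z : ↥(tbFixO 𝔓 H)) :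
    ((tbFixIncl 𝔓 H z : ↥𝔓.P) : Qb) = ((z : ↥(tbFix 𝔓 H)) : Qb) := rfl

/-- the residue map `O_H → κ = P/𝔪_P` -/
def tbFixRes : ↥(tbFixO 𝔓 H) →+* IsLocalRing.ResidueField ↥𝔓.P :=
  (IsLocalRing.residue ↥𝔓.P).comp (tbFixIncl 𝔓 H)

theorem tbFixRes_surjective : Function.Surjective (tbFixRes 𝔓 H) := by
  intro t
  obtain ⟨a, rfl⟩ := IsLocalRing.residue_surjective t
  obtain ⟨w, hwW, hgt⟩ := 𝔓.exists_W_sub_gt ((𝔓.mem_P_iff _).mp a.2)
  have hwK : w ∈ 𝔓.K0 := 𝔓.K0_of_W hwW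
  have hwL : w ∈ tbFix 𝔓 H := K0_le_tbFix 𝔓 H hwK
  have hwge : 𝔓.v.Ge w 0 := ((𝔓.mem_W_iff w).mp hwW).1
  have hwO : (⟨w, hwL⟩ : ↥(tbFix 𝔓 H)) ∈ tbFixO 𝔓 H := by
    rw [mem_tbFixO]; exact hwge
  refine ⟨⟨⟨w, hwL⟩, hwO⟩, ?_⟩
  show IsLocalRing.residue ↥𝔓.P (tbFixIncl 𝔓 H ⟨⟨w, hwL⟩, hwO⟩) = IsLocalRing.residue ↥𝔓.P a
  rw [← sub_eq_zero, ← map_sub, IsLocalRing.residue_eq_zero_iff, tb_mem_maximalIdeal_iff]
  have : ((tbFixIncl 𝔓 H ⟨⟨w, hwL⟩, hwO⟩ - a : ↥𝔓.P) : Qb) = -((a : Qb) - w) := by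
    rw [AddSubgroupClass.coe_sub, coe_tbFixIncl]; ring
  rw [this]
  exact hgt.neg

/-- stabilisers of algebraic numbers in the inertia group have finite index -/
theorem tb_finiteIndex_stabilizer (z : Qb) : (MulAction.stabilizer ↥𝔓.I z).FiniteIndex := by
  constructor
  rw [MulAction.index_stabilizer]
  have hsub : MulAction.orbit ↥𝔓.I z ⊆ (minpoly ℚ z).rootSet Qb := by
    rintro _ ⟨σ, rfl⟩
    have hz : IsIntegral ℚ z := (AlgebraicClosure.isAlgebraic ℚ).isIntegral.isIntegral z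
    rw [Polynomial.mem_rootSet]
    refine ⟨minpoly.ne_zero hz, ?_⟩
    show Polynomial.aeval (((σ : ↥𝔓.I) : GQ) z) (minpoly ℚ z) = 0
    rw [Polynomial.aeval_algHom_apply, minpoly.aeval, map_zero]
  have hfin : (MulAction.orbit ↥𝔓.I z).Finite := (Polynomial.rootSet_finite _ _).subset hsub
  exact ((Set.ncard_pos hfin).mpr ⟨z, MulAction.mem_orbit_self z⟩).ne'

/-- every finite set of algebraic numbers is fixed by a subgroup of finite index of inertia -/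
theorem tb_exists_finiteIndex_fix (S : Finset Qb) :
    ∃ H : Subgroup 𝔓.I, H.FiniteIndex ∧ ∀ z ∈ S, z ∈ tbFix 𝔓 H := by
  refine ⟨⨅ z ∈ S, MulAction.stabilizer ↥𝔓.I z,
    Subgroup.finiteIndex_iInf' _ (fun z _ => tb_finiteIndex_stabilizer 𝔓 z), fun z hz => ?_⟩
  rw [mem_tbFix]
  intro σ hσ
  have h1 : σ ∈ MulAction.stabilizer ↥𝔓.I z := by
    have := (Subgroup.mem_iInf.mp hσ) z
    exact (Subgroup.mem_iInf.mp this) hz
  exact MulAction.mem_stabilizer_iff.mp h1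

end

end Fermat.Agent.T1
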