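/-
T1-B (lead): the abstract core of "reduction is injective on prime-to-ℓ torsion" (CORE').

Pure commutative algebra, no completions.  `𝒪` is a commutative ring with an element `π`
dividing the prime `ℓ`; `m` is prime to `ℓ`.  `B₁ B₂` are subrings ("functions on the two charts"),
`M₁ M₂ ≤ M₁₂` additive subgroups ("sections of the twisted sheaf on the charts and on the overlap"),
`y ≡ 1 mod π` with `y * e ^ m ∈ Bᵢ` for the chosen `e = eᵢ ∈ Mᵢ`, `eᵢ ≡ 1 mod π`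
(triviality on the special fibre of each chart).  If `M₁₂/(M₁+M₂)` has bounded `π`-power torsion
(finiteness of `H¹`), then `M₁ ∩ M₂` contains an element `≡ 1 mod π` (a global section).
-/
import Mathlib

set_option autoImplicit false

namespace Fermat.Agent.T1

section PowLemmas

variable {R : Type*} [CommRing R]

/-- If `π ∣ ℓ` and `π ^ j ∣ z - 1` with `1 ≤ j`, then `π ^ (j+1) ∣ z ^ ℓ - 1`. -/
theorem tb_pow_prime_sub_one_dvd (π : R) (ℓ : ℕ) (hπℓ : π ∣ (ℓ : R)) {j : ℕ}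
    (hj : 1 ≤ j) {z : R} (hz : π ^ j ∣ z - 1) : π ^ (j + 1) ∣ z ^ ℓ - 1 := by
  obtain ⟨w, hw⟩ := hz
  have hgeom : z ^ ℓ - 1 = (z - 1) * ∑ i ∈ Finset.range ℓ, z ^ i := by
    rw [mul_comm]; exact (geom_sum_mul z ℓ).symm
  have hsum : π ∣ ∑ i ∈ Finset.range ℓ, z ^ i := by
    have h1 : ∀ i : ℕ, π ∣ z ^ i - 1 := by
      intro i
      have : z - 1 ∣ z ^ i - 1 := sub_one_dvd_pow_sub_one z i
      exact dvd_trans (dvd_trans (dvd_pow_self π (by omega)) ⟨w, hw⟩) this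
    have h2 : ∑ i ∈ Finset.range ℓ, z ^ i = ∑ i ∈ Finset.range ℓ, (z ^ i - 1) + (ℓ : R) := by
      rw [Finset.sum_sub_distrib]; simp
    rw [h2]
    exact dvd_add (Finset.dvd_sum fun i _ => h1 i) hπℓ
  obtain ⟨c, hc⟩ := hsum
  refine ⟨w * c, ?_⟩
  rw [hgeom, hw, hc, pow_succ]; ring

/-- If `π ∣ ℓ` and `z ≡ 1 mod π` then `z ^ (ℓ ^ k) ≡ 1 mod π ^ (k+1)`. -/
theorem tb_pow_pow_sub_one_dvd (π : R) (ℓ : ℕ) (hπℓ : π ∣ (ℓ : R)) {z : R} (hz : π ∣ z - 1)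
    (k : ℕ) : π ^ (k + 1) ∣ z ^ (ℓ ^ k) - 1 := by
  induction k with
  | zero => simpa using hz
  | succ k ih =>
    have := tb_pow_prime_sub_one_dvd π ℓ hπℓ (Nat.succ_le_succ (Nat.zero_le k)) ih
    rwa [← pow_mul, ← pow_succ] at this

/-- Bezout in the form used below. -/
theorem tb_exists_mul_eq_one_add {m E : ℕ} (h : Nat.Coprime m E) (hE : 1 < E) :
    ∃ m' q : ℕ, m * m' = 1 + q * E := by
  obtain ⟨m', -, hm'⟩ := Nat.exists_mul_mod_eq_one_of_coprime h hE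
  refine ⟨m', m * m' / E, ?_⟩
  have := Nat.div_add_mod (m * m') E
  rw [hm'] at this
  rw [mul_comm (m * m' / E)]; omega

/-- If `z ≡ 1 mod π ^ (k+1)`-power-wise: `z ^ (1 + q ℓ^k) ≡ z mod π ^ (k+1)` for `z ≡ 1 mod π`. -/
theorem tb_pow_one_add_mul_sub_dvd (π : R) (ℓ : ℕ) (hπℓ : π ∣ (ℓ : R)) {z : R} (hz : π ∣ z - 1)
    (k q : ℕ) : π ^ (k + 1) ∣ z ^ (1 + q * ℓ ^ k) - z := by
  have h := tb_pow_pow_sub_one_dvd π ℓ hπℓ hz k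
  have h2 : π ^ (k + 1) ∣ (z ^ (ℓ ^ k)) ^ q - 1 := dvd_trans h (sub_one_dvd_pow_sub_one _ q)
  obtain ⟨c, hc⟩ := h2
  refine ⟨z * c, ?_⟩
  rw [pow_add, pow_one, mul_comm q, pow_mul]
  linear_combination z * hc

/-- `m`-th powers are injective on `1 + π R` modulo `π ^ (k+1)` when `m` is prime to `ℓ`. -/
theorem tb_pow_injective_mod (π : R) (ℓ : ℕ) (hℓ : ℓ.Prime) (hπℓ : π ∣ (ℓ : R)) (m : ℕ)
    (hm : Nat.Coprime m ℓ) (k : ℕ) {a b : R} (ha : π ∣ a - 1) (hb : π ∣ b - 1)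
    (hab : π ^ (k + 1) ∣ a ^ m - b ^ m) : π ^ (k + 1) ∣ a - b := by
  rcases Nat.eq_zero_or_pos k with rfl | hk
  · have : a - b = (a - 1) - (b - 1) := by ring
    rw [this, zero_add, pow_one]
    exact dvd_sub ha hb
  have hcop : Nat.Coprime m (ℓ ^ k) := Nat.Coprime.pow_right k hm
  have hE : 1 < ℓ ^ k := Nat.one_lt_pow hk.ne' hℓ.one_lt
  obtain ⟨m', q, hmq⟩ := tb_exists_mul_eq_one_add hcop hE
  have hapow : π ^ (k + 1) ∣ a ^ (m * m') - a := by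
    rw [hmq]; exact tb_pow_one_add_mul_sub_dvd π ℓ hπℓ ha k q
  have hbpow : π ^ (k + 1) ∣ b ^ (m * m') - b := by
    rw [hmq]; exact tb_pow_one_add_mul_sub_dvd π ℓ hπℓ hb k q
  have hmm : π ^ (k + 1) ∣ a ^ (m * m') - b ^ (m * m') := by
    rw [pow_mul, pow_mul]
    exact dvd_trans hab (sub_dvd_pow_sub_pow _ _ m')
  have : a - b = (a ^ (m * m') - b ^ (m * m')) - (a ^ (m * m') - a) + (b ^ (m * m') - b) := by ring
  rw [this]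
  exact dvd_add (dvd_sub hmm hapow) hbpow

theorem tb_dvd_pow_sub_one_of_dvd_sub_one (π : R) {z : R} (hz : π ∣ z - 1) (n : ℕ) :
    π ∣ z ^ n - 1 :=
  dvd_trans hz (sub_one_dvd_pow_sub_one z n)

theorem tb_dvd_mul_sub_one (π : R) {a b : R} (ha : π ∣ a - 1) (hb : π ∣ b - 1) :
    π ∣ a * b - 1 := by
  have : a * b - 1 = (a - 1) * b + (b - 1) := by ring
  rw [this]
  exact dvd_add (Dvd.dvd.mul_right ha b) hb

end PowLemmas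

section Core

variable {𝒪 : Type*} [CommRing 𝒪]

theorem tb_mem_of_pow_mul_mem (π : 𝒪) (M : AddSubgroup 𝒪) (hsat : ∀ x : 𝒪, π * x ∈ M → x ∈ M)
    (k : ℕ) (x : 𝒪) (hx : π ^ k * x ∈ M) : x ∈ M := by
  induction k with
  | zero => simpa using hx
  | succ k ih =>
    apply ih
    apply hsat
    rwa [← mul_assoc, ← pow_succ']

/-- **CORE' (abstract form).**  See the file header. -/
theorem tb_core (π : 𝒪) (ℓ : ℕ) (hℓ : ℓ.Prime) (hπℓ : π ∣ (ℓ : 𝒪))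
    (m : ℕ) (hm : Nat.Coprime m ℓ)
    (B₁ B₂ : Subring 𝒪) (hπ1 : π ∈ B₁) (hπ2 : π ∈ B₂)
    (M₁ M₂ M₁₂ : AddSubgroup 𝒪) (h1 : M₁ ≤ M₁₂) (h2 : M₂ ≤ M₁₂)
    (hBM1 : ∀ b ∈ B₁, ∀ s ∈ M₁, b * s ∈ M₁) (hBM2 : ∀ b ∈ B₂, ∀ s ∈ M₂, b * s ∈ M₂)
    (hsat : ∀ x : 𝒪, π * x ∈ M₁₂ → x ∈ M₁₂)
    (y : 𝒪) (hy : π ∣ y - 1)
    (e₁ e₂ : 𝒪) (he1 : e₁ ∈ M₁) (he2 : e₂ ∈ M₂) (he1' : π ∣ e₁ - 1) (he2' : π ∣ e₂ - 1)
    (hc1 : y * e₁ ^ m ∈ B₁) (hc2 : y * e₂ ^ m ∈ B₂)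
    (k₀ : ℕ) (hbdd : ∀ t ∈ M₁₂, ∀ k : ℕ, π ^ k * t ∈ M₁ ⊔ M₂ → π ^ k₀ * t ∈ M₁ ⊔ M₂) :
    ∃ s ∈ M₁ ⊓ M₂, π ∣ s - 1 := by
  set k := k₀ + 1 with hk
  set E := ℓ ^ k with hE
  have hE1 : 1 < E := Nat.one_lt_pow (by omega) hℓ.one_lt
  have hcop : Nat.Coprime m E := Nat.Coprime.pow_right k hm
  obtain ⟨m', q, hmq⟩ := tb_exists_mul_eq_one_add hcop hE1
  -- the key construction, uniformly for both charts
  have key : ∀ (B : Subring 𝒪) (M : AddSubgroup 𝒪) (_ : ∀ b ∈ B, ∀ s ∈ M, b * s ∈ M)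
      (e : 𝒪) (_ : e ∈ M) (_ : π ∣ e - 1) (_ : y * e ^ m ∈ B),
      ∃ s ∈ M, π ∣ s - 1 ∧ π ^ (k + 1) ∣ y * s ^ m - 1 := by
    intro B M hBM e he he' hc
    set c := y * e ^ m with hcdef
    have hc1 : π ∣ c - 1 :=
      tb_dvd_mul_sub_one π hy (tb_dvd_pow_sub_one_of_dvd_sub_one π he' m)
    refine ⟨c ^ (m' * (E - 1)) * e, hBM _ (Subring.pow_mem B hc _) e he,
      tb_dvd_mul_sub_one π (tb_dvd_pow_sub_one_of_dvd_sub_one π hc1 _) he', ?_⟩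
    have hexp : m * (m' * (E - 1)) + 1 = E * (1 + q * (E - 1)) := by
      obtain ⟨E', hE'⟩ : ∃ E', E = E' + 1 := ⟨E - 1, by omega⟩
      rw [hE'] at hmq ⊢
      simp only [Nat.add_sub_cancel]
      have : m * (m' * E') = (m * m') * E' := by ring
      rw [this, hmq]; ring
    have : y * (c ^ (m' * (E - 1)) * e) ^ m = c ^ (m * (m' * (E - 1)) + 1) := by
      rw [mul_pow, ← pow_mul, pow_succ, hcdef]; ring
    rw [this, hexp, pow_mul]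
    exact dvd_trans (tb_pow_pow_sub_one_dvd π ℓ hπℓ hc1 k) (sub_one_dvd_pow_sub_one _ _)
  obtain ⟨s₁, hs1, hs1', hs1y⟩ := key B₁ M₁ hBM1 e₁ he1 he1' hc1
  obtain ⟨s₂, hs2, hs2', hs2y⟩ := key B₂ M₂ hBM2 e₂ he2 he2' hc2
  -- s₁^m ≡ s₂^m
  have hyE : π ^ (k + 1) ∣ y ^ E - 1 := tb_pow_pow_sub_one_dvd π ℓ hπℓ hy k
  have hpow : π ^ (k + 1) ∣ s₁ ^ m - s₂ ^ m := by
    obtain ⟨E', hE'⟩ : ∃ E', E = E' + 1 := ⟨E - 1, by omega⟩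
    have : s₁ ^ m - s₂ ^ m = y ^ E' * ((y * s₁ ^ m - 1) - (y * s₂ ^ m - 1))
        - (y ^ E - 1) * (s₁ ^ m - s₂ ^ m) := by
      rw [hE', pow_succ]; ring
    rw [this]
    exact dvd_sub (Dvd.dvd.mul_left (dvd_sub hs1y hs2y) _) (Dvd.dvd.mul_right hyE _)
  have hdiff : π ^ (k + 1) ∣ s₁ - s₂ :=
    tb_pow_injective_mod π ℓ hℓ hπℓ m hm k hs1' hs2' hpow
  obtain ⟨t, ht⟩ := hdiff
  have hs12 : s₁ - s₂ ∈ M₁₂ := M₁₂.sub_mem (h1 hs1) (h2 hs2)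
  have htM : t ∈ M₁₂ := tb_mem_of_pow_mul_mem π M₁₂ hsat (k + 1) t (ht ▸ hs12)
  have hsup : π ^ (k + 1) * t ∈ M₁ ⊔ M₂ := by
    rw [← ht]
    exact (M₁ ⊔ M₂).sub_mem (AddSubgroup.mem_sup_left hs1) (AddSubgroup.mem_sup_right hs2)
  have hk0 := hbdd t htM (k + 1) hsup
  obtain ⟨a₁, ha1, a₂, ha2, ha⟩ := AddSubgroup.mem_sup.mp hk0
  have hπpow1 : ∀ n : ℕ, π ^ n ∈ B₁ := fun n => Subring.pow_mem B₁ hπ1 n
  have hπpow2 : ∀ n : ℕ, π ^ n ∈ B₂ := fun n => Subring.pow_mem B₂ hπ2 n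
  refine ⟨s₁ - π ^ 2 * a₁, ⟨M₁.sub_mem hs1 (hBM1 _ (hπpow1 2) _ ha1), ?_⟩, ?_⟩
  · have : s₁ - π ^ 2 * a₁ = s₂ + π ^ 2 * a₂ := by
      have h3 : s₁ - s₂ = π ^ 2 * (a₁ + a₂) := by
        rw [ht, ha, hk]; ring
      linear_combination h3
    rw [this]
    exact M₂.add_mem hs2 (hBM2 _ (hπpow2 2) _ ha2)
  · have : s₁ - π ^ 2 * a₁ - 1 = (s₁ - 1) - π * (π * a₁) := by ring
    rw [this]
    exact dvd_sub hs1' (Dvd.intro _ rfl)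

end Core

end Fermat.Agent.T1
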