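/-
T1-B (helper9): the lattice layer of CORE', definitions.

`K ⊆ F` fields, `A` a valuation ring of `K` (rank one, residue characteristic `ℓ`; NOT necessarily
discrete: the intended instance is `K = ℚ̄`, `A` a valuation subring over `ℓ`), `𝒪 ⊆ F` a subring
("Gauss ring") with a surjective reduction map `res : 𝒪 → F̄` extending `A → k`.  `TbBase` bundles
this with the two properties (normalisability = "same value group", and (Cart) = "unit balls of
finite-dimensional subspaces are finitely generated").
-/
import Mathlib

set_option autoImplicit false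

namespace Fermat.Agent.T1

/-- the valuation-theoretic base data of CORE' -/
structure TbBase (K F k Fb : Type*) [Field K] [Field F] [Algebra K F] [Field k] [Field Fb]
    [Algebra k Fb] where
  /-- the valuation ring of the base field -/
  A : ValuationSubring K
  /-- the residue map of the base -/
  resA : ↥A →+* k
  resA_surj : Function.Surjective resA
  /-- the "Gauss ring" -/
  Ov : Subring F
  /-- the reduction map -/
  res : ↥Ov →+* Fb
  res_surj : Function.Surjective res
  algebraMap_mem : ∀ a : ↥A, algebraMap K F (a : K) ∈ Ov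
  res_algebraMap : ∀ a : ↥A, res ⟨algebraMap K F (a : K), algebraMap_mem a⟩ =
    algebraMap k Fb (resA a)
  /-- every nonzero function can be scaled to a Gauss unit (same value group) -/
  normalize : ∀ f : F, f ≠ 0 → ∃ c : K, c ≠ 0 ∧ ∃ h : c • f ∈ Ov, res ⟨c • f, h⟩ ≠ 0
  /-- the valuation of `A` has rank one -/
  arch : ∀ a : ↥A, a ∈ IsLocalRing.maximalIdeal ↥A → ∀ c : ↥A, c ≠ 0 → ∃ n : ℕ, c ∣ a ^ n
  /-- (Cart): the unit ball of a finite-dimensional subspace is a finitely generated `A`-module -/
  cart : ∀ W : Submodule K F, FiniteDimensional K ↥W →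
    ∃ S : Finset F, (∀ s ∈ S, s ∈ W ∧ s ∈ Ov) ∧
      ∀ f ∈ W, f ∈ Ov → ∃ c : F → ↥A, f = ∑ s ∈ S, ((c s : ↥A) : K) • s

end Fermat.Agent.T1
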