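/-
T1-B (helper9): the lattice layer of CORE', part 1: unit balls, Nakayama, surjectivity of the
reduction of a unit ball onto a space of the same dimension.
-/
import Fermat.Agent.Lib.T1.Core.LatticeDefs

set_option autoImplicit false
set_option linter.style.haveILetI false

namespace Fermat.Agent.T1

namespace TbBase

variable {K F k Fb : Type*} [Field K] [Field F] [Algebra K F] [Field k] [Field Fb] [Algebra k Fb]
variable (d : TbBase K F k Fb)

theorem resA_eq_zero_iff (a : ↥d.A) : d.resA a = 0 ↔ a ∈ IsLocalRing.maximalIdeal ↥d.A := by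
  have hmax : (RingHom.ker d.resA).IsMaximal :=
    RingHom.ker_isMaximal_of_surjective d.resA d.resA_surj
  rw [← IsLocalRing.eq_maximalIdeal hmax, RingHom.mem_ker]

/-- `A → 𝒪` -/
def toOv : ↥d.A →+* ↥d.Ov :=
  ((algebraMap K F).comp d.A.subtype).codRestrict d.Ov d.algebraMap_mem

@[simp] theorem coe_toOv (a : ↥d.A) : ((d.toOv a : ↥d.Ov) : F) = algebraMap K F (a : K) := rfl

theorem res_toOv (a : ↥d.A) : d.res (d.toOv a) = algebraMap k Fb (d.resA a) :=
  d.res_algebraMap a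

theorem smul_mem (a : ↥d.A) {f : F} (hf : f ∈ d.Ov) : ((a : ↥d.A) : K) • f ∈ d.Ov := by
  rw [Algebra.smul_def]
  exact d.Ov.mul_mem (d.algebraMap_mem a) hf

theorem res_smul (a : ↥d.A) {f : F} (hf : f ∈ d.Ov) :
    d.res ⟨((a : ↥d.A) : K) • f, d.smul_mem a hf⟩ =
      algebraMap k Fb (d.resA a) * d.res ⟨f, hf⟩ := by
  rw [← d.res_toOv a, ← map_mul]
  congr 1
  apply Subtype.ext
  show ((a : ↥d.A) : K) • f = algebraMap K F (a : K) * f
  rw [Algebra.smul_def]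

theorem res_smul' (a : ↥d.A) {f : F} (hf : f ∈ d.Ov) :
    d.res ⟨((a : ↥d.A) : K) • f, d.smul_mem a hf⟩ = d.resA a • d.res ⟨f, hf⟩ := by
  rw [res_smul, Algebra.smul_def]

theorem res_zero' (h : (0 : F) ∈ d.Ov) : d.res ⟨0, h⟩ = 0 := map_zero d.res

theorem res_add' {f g : F} (hf : f ∈ d.Ov) (hg : g ∈ d.Ov) :
    d.res ⟨f + g, d.Ov.add_mem hf hg⟩ = d.res ⟨f, hf⟩ + d.res ⟨g, hg⟩ :=
  map_add d.res ⟨f, hf⟩ ⟨g, hg⟩

theorem res_sub' {f g : F} (hf : f ∈ d.Ov) (hg : g ∈ d.Ov) :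
    d.res ⟨f - g, d.Ov.sub_mem hf hg⟩ = d.res ⟨f, hf⟩ - d.res ⟨g, hg⟩ :=
  map_sub d.res ⟨f, hf⟩ ⟨g, hg⟩

theorem res_mul' {f g : F} (hf : f ∈ d.Ov) (hg : g ∈ d.Ov) :
    d.res ⟨f * g, d.Ov.mul_mem hf hg⟩ = d.res ⟨f, hf⟩ * d.res ⟨g, hg⟩ :=
  map_mul d.res ⟨f, hf⟩ ⟨g, hg⟩

theorem res_pow' {f : F} (hf : f ∈ d.Ov) (n : ℕ) :
    d.res ⟨f ^ n, d.Ov.pow_mem hf n⟩ = d.res ⟨f, hf⟩ ^ n :=
  map_pow d.res ⟨f, hf⟩ n

theorem res_one' (h : (1 : F) ∈ d.Ov) : d.res ⟨1, h⟩ = 1 := map_one d.res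

theorem res_congr {f g : F} (hf : f ∈ d.Ov) (hfg : f = g) :
    d.res ⟨f, hf⟩ = d.res ⟨g, hfg ▸ hf⟩ := by
  subst hfg; rfl

/-- the unit ball of a `K`-subspace, as an `A`-submodule -/
def ball (W : Submodule K F) : Submodule ↥d.A F where
  carrier := {f | f ∈ W ∧ f ∈ d.Ov}
  zero_mem' := ⟨W.zero_mem, d.Ov.zero_mem⟩
  add_mem' := fun h1 h2 => ⟨W.add_mem h1.1 h2.1, d.Ov.add_mem h1.2 h2.2⟩
  smul_mem' := fun a _ hf => ⟨W.smul_mem (a : K) hf.1, d.smul_mem a hf.2⟩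

theorem mem_ball {W : Submodule K F} {f : F} : f ∈ d.ball W ↔ f ∈ W ∧ f ∈ d.Ov := Iff.rfl

theorem ball_mono {W W' : Submodule K F} (h : W ≤ W') : d.ball W ≤ d.ball W' :=
  fun _ hf => ⟨h hf.1, hf.2⟩

/-- an element of a subspace with zero reduction is `a • g` with `a ∈ 𝔪_A`, `g` in the unit ball -/
theorem exists_smul_of_res_eq_zero (W : Submodule K F) {f : F} (hf : f ∈ d.ball W)
    (h0 : d.res ⟨f, hf.2⟩ = 0) :
    ∃ a : ↥d.A, a ∈ IsLocalRing.maximalIdeal ↥d.A ∧ ∃ g : F, g ∈ d.ball W ∧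
      f = ((a : ↥d.A) : K) • g := by
  rcases eq_or_ne f 0 with rfl | hf0
  · exact ⟨0, zero_mem _, 0, (d.ball W).zero_mem, by simp⟩
  obtain ⟨c, hc0, hcf, hres⟩ := d.normalize f hf0
  have hcA : c ∉ d.A := by
    intro hc
    apply hres
    have h := d.res_smul ⟨c, hc⟩ hf.2
    rw [h0, mul_zero] at h
    exact h
  have hcinv : c⁻¹ ∈ d.A := (d.A.mem_or_inv_mem c).resolve_left hcA
  refine ⟨⟨c⁻¹, hcinv⟩, ?_, c • f, ⟨W.smul_mem c hf.1, hcf⟩, ?_⟩
  · rw [IsLocalRing.mem_maximalIdeal, mem_nonunits_iff]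
    intro hu
    apply hcA
    obtain ⟨b, hb⟩ := isUnit_iff_exists_inv.mp hu
    have h1 : c⁻¹ * (b : K) = 1 := by
      have := congrArg Subtype.val hb
      simpa using this
    have h2 : (b : K) = c := by
      have := congrArg (fun t => c * t) h1
      simpa [← mul_assoc, mul_inv_cancel₀ hc0] using this
    rw [← h2]
    exact b.2
  · show f = c⁻¹ • c • f
    rw [smul_smul, inv_mul_cancel₀ hc0, one_smul]

/-- (Cart) in the form: unit balls of finite-dimensional subspaces are finitely generated -/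
theorem ball_fg (W : Submodule K F) [FiniteDimensional K ↥W] : (d.ball W).FG := by
  obtain ⟨S, hS, hrep⟩ := d.cart W inferInstance
  refine ⟨S, le_antisymm (Submodule.span_le.2 fun s hs => hS s hs) (fun f hf => ?_)⟩
  obtain ⟨c, hc⟩ := hrep f hf.1 hf.2
  rw [hc]
  exact Submodule.sum_mem _ (fun s hs => Submodule.smul_mem _ (c s) (Submodule.subset_span hs))

/-- **Nakayama**: an `A`-submodule of a unit ball with the same reduction is the whole ball -/
theorem ball_le_of_res (W : Submodule K F) [FiniteDimensional K ↥W] (N : Submodule ↥d.A F)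
    (hNW : N ≤ d.ball W)
    (hN : ∀ s (hs : s ∈ d.ball W), ∃ n, ∃ hn : n ∈ N,
      d.res ⟨n, (hNW hn).2⟩ = d.res ⟨s, hs.2⟩) :
    d.ball W ≤ N := by
  refine Submodule.le_of_le_smul_of_le_jacobson_bot (I := IsLocalRing.maximalIdeal ↥d.A)
    (d.ball_fg W) (IsLocalRing.maximalIdeal_le_jacobson ⊥) ?_
  intro s hs
  obtain ⟨n, hn, hns⟩ := hN s hs
  have hsub : s - n ∈ d.ball W := (d.ball W).sub_mem hs (hNW hn)
  have h0 : d.res ⟨s - n, hsub.2⟩ = 0 := by
    rw [d.res_sub' hs.2 (hNW hn).2, hns, sub_self]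
  obtain ⟨a, ha, g, hg, hfg⟩ := d.exists_smul_of_res_eq_zero W hsub h0
  have : s = n + (s - n) := by ring
  rw [this]
  refine Submodule.add_mem_sup hn ?_
  rw [hfg]
  exact Submodule.smul_mem_smul ha hg

/-- the reduction of a unit ball, as a `k`-subspace -/
def resBall (W : Submodule K F) : Submodule k Fb where
  carrier := {t | ∃ s, ∃ hs : s ∈ d.ball W, d.res ⟨s, hs.2⟩ = t}
  zero_mem' := ⟨0, (d.ball W).zero_mem, d.res_zero' _⟩
  add_mem' := by
    rintro _ _ ⟨s, hs, rfl⟩ ⟨s', hs', rfl⟩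
    exact ⟨s + s', (d.ball W).add_mem hs hs', d.res_add' hs.2 hs'.2⟩
  smul_mem' := by
    rintro c _ ⟨s, hs, rfl⟩
    obtain ⟨a, rfl⟩ := d.resA_surj c
    exact ⟨((a : ↥d.A) : K) • s, (d.ball W).smul_mem a hs, d.res_smul' a hs.2⟩

theorem mem_resBall {W : Submodule K F} {t : Fb} :
    t ∈ d.resBall W ↔ ∃ s, ∃ hs : s ∈ d.ball W, d.res ⟨s, hs.2⟩ = t := Iff.rfl

theorem resBall_mono {W W' : Submodule K F} (h : W ≤ W') : d.resBall W ≤ d.resBall W' := by
  rintro _ ⟨s, hs, rfl⟩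
  exact ⟨s, d.ball_mono h hs, rfl⟩

/-- a unit ball is the sum of two sub-balls if this holds for the reductions -/
theorem ball_eq_sup_of_resBall (W W₁ W₂ : Submodule K F) [FiniteDimensional K ↥W]
    (h1 : W₁ ≤ W) (h2 : W₂ ≤ W) (hres : d.resBall W ≤ d.resBall W₁ ⊔ d.resBall W₂) :
    d.ball W = d.ball W₁ ⊔ d.ball W₂ := by
  have hNW : d.ball W₁ ⊔ d.ball W₂ ≤ d.ball W := sup_le (d.ball_mono h1) (d.ball_mono h2)
  refine le_antisymm (d.ball_le_of_res W _ hNW (fun s hs => ?_)) hNW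
  have hsR : d.res ⟨s, hs.2⟩ ∈ d.resBall W := ⟨s, hs, rfl⟩
  obtain ⟨t₁, ⟨s₁, hs₁, rfl⟩, t₂, ⟨s₂, hs₂, rfl⟩, hsum⟩ := Submodule.mem_sup.mp (hres hsR)
  refine ⟨s₁ + s₂, Submodule.add_mem_sup hs₁ hs₂, ?_⟩
  rw [← hsum]
  exact d.res_add' hs₁.2 hs₂.2

theorem res_sum' {ι : Type*} (t : Finset ι) (f : ι → F) (hf : ∀ i, f i ∈ d.Ov)
    (h : ∑ i ∈ t, f i ∈ d.Ov) :
    d.res ⟨∑ i ∈ t, f i, h⟩ = ∑ i ∈ t, d.res ⟨f i, hf i⟩ := by
  rw [← map_sum]
  congr 1
  apply Subtype.ext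
  rw [AddSubmonoidClass.coe_finsetSum]

/-- if the reduction of the unit ball of `W` lies in a space `V` with `dim V ≤ dim W`, it is `V` -/
theorem resBall_eq_of_finrank_le (W : Submodule K F) [FiniteDimensional K ↥W]
    (V : Submodule k Fb) [FiniteDimensional k ↥V] (hWV : d.resBall W ≤ V)
    (hdim : Module.finrank k ↥V ≤ Module.finrank K ↥W) : d.resBall W = V := by
  classical
  haveI : FiniteDimensional k ↥(d.resBall W) := Submodule.finiteDimensional_of_le hWV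
  set r := Module.finrank k ↥(d.resBall W) with hr
  let b : Module.Basis (Fin r) k ↥(d.resBall W) := Module.finBasis k _
  have hlift : ∀ i, ∃ s, ∃ hs : s ∈ d.ball W, d.res ⟨s, hs.2⟩ = ((b i : ↥(d.resBall W)) : Fb) :=
    fun i => (b i).2
  choose s hs hsb using hlift
  set N : Submodule ↥d.A F := Submodule.span ↥d.A (Set.range s) with hN
  have hNW : N ≤ d.ball W := Submodule.span_le.2 (by rintro _ ⟨i, rfl⟩; exact hs i)
  have hball : d.ball W ≤ N := by
    refine d.ball_le_of_res W N hNW (fun f hf => ?_)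
    have hfR : d.res ⟨f, hf.2⟩ ∈ d.resBall W := ⟨f, hf, rfl⟩
    choose a ha using fun i => d.resA_surj (b.repr ⟨_, hfR⟩ i)
    have hmem : ∀ i, ((a i : ↥d.A) : K) • s i ∈ d.Ov := fun i => d.smul_mem (a i) (hs i).2
    refine ⟨∑ i, ((a i : ↥d.A) : K) • s i,
      Submodule.sum_mem _ (fun i _ =>
        Submodule.smul_mem _ (a i) (Submodule.subset_span ⟨i, rfl⟩)), ?_⟩
    rw [d.res_sum' Finset.univ _ hmem]
    have h1 : ∀ i, d.res ⟨((a i : ↥d.A) : K) • s i, hmem i⟩ =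
        (b.repr ⟨_, hfR⟩ i) • ((b i : ↥(d.resBall W)) : Fb) := by
      intro i
      rw [d.res_smul' (a i) (hs i).2, ha i, hsb i]
    rw [Finset.sum_congr rfl (fun i _ => h1 i)]
    have h2 := congrArg (Subtype.val) (b.sum_repr ⟨_, hfR⟩)
    rw [Submodule.coe_sum] at h2
    simpa using h2
  have hWspan : W ≤ Submodule.span K (Set.range s) := by
    intro f hf
    rcases eq_or_ne f 0 with rfl | hf0
    · exact zero_mem _
    obtain ⟨c, hc0, hcf, -⟩ := d.normalize f hf0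
    have h1 : c • f ∈ N := hball ⟨W.smul_mem c hf, hcf⟩
    have h2 : c • f ∈ Submodule.span K (Set.range s) :=
      Submodule.span_le_restrictScalars ↥d.A K (Set.range s) h1
    have h3 : f = c⁻¹ • (c • f) := by rw [smul_smul, inv_mul_cancel₀ hc0, one_smul]
    rw [h3]
    exact Submodule.smul_mem _ _ h2
  haveI : FiniteDimensional K ↥(Submodule.span K (Set.range s)) :=
    FiniteDimensional.span_of_finite K (Set.finite_range s)
  have h4 : Module.finrank K ↥W ≤ r := by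
    calc Module.finrank K ↥W ≤ Module.finrank K ↥(Submodule.span K (Set.range s)) :=
          Submodule.finrank_mono hWspan
      _ ≤ Fintype.card (Fin r) := finrank_range_le_card s
      _ = r := Fintype.card_fin r
  exact Submodule.eq_of_le_of_finrank_le hWV (by omega)

/-- surjectivity form -/
theorem exists_mem_ball_res_eq (W : Submodule K F) [FiniteDimensional K ↥W]
    (V : Submodule k Fb) [FiniteDimensional k ↥V] (hWV : d.resBall W ≤ V)
    (hdim : Module.finrank k ↥V ≤ Module.finrank K ↥W) {t : Fb} (ht : t ∈ V) :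
    ∃ s, ∃ hs : s ∈ d.ball W, d.res ⟨s, hs.2⟩ = t := by
  rw [← d.resBall_eq_of_finrank_le W V hWV hdim] at ht
  exact ht

end TbBase

end Fermat.Agent.T1
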