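/-
T1-B (helper9): the lattice layer of CORE', part 2: the chart data `TbChart`, the spaces
`L(a,b)` and `L̄(a,b)`, surjectivity of reduction `Λ(a,b) → L̄(a,b)`, the sum decompositions
`Λ(a+1,b) = Λ(a,b) + Λ(a+1,0)` and `Λ(a,b+1) = Λ(a,b) + Λ(0,b+1)`.
-/
import Fermat.Agent.Lib.T1.Core.Lattice1

set_option autoImplicit false
set_option linter.style.haveILetI false

namespace Fermat.Agent.T1

section Defs

variable {K F : Type*} [Field K] [Field F] [Algebra K F]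

theorem tb_isIntegral_self (x : F) : IsIntegral ↥(Algebra.adjoin K {x}) x :=
  isIntegral_algebraMap (x := (⟨x, Algebra.self_mem_adjoin_singleton K x⟩ : ↥(Algebra.adjoin K {x})))

theorem tb_isIntegral_pow_self (x : F) (n : ℕ) : IsIntegral ↥(Algebra.adjoin K {x}) (x ^ n) :=
  (tb_isIntegral_self x).pow n

theorem tb_isIntegral_smul (x : F) (c : K) {f : F} (hf : IsIntegral ↥(Algebra.adjoin K {x}) f) :
    IsIntegral ↥(Algebra.adjoin K {x}) (c • f) := by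
  rw [Algebra.smul_def]
  exact (isIntegral_algebraMap (x := algebraMap K ↥(Algebra.adjoin K {x}) c)).mul hf

/-- sections of the twisted sheaf with poles of order `≤ a` at `x = ∞` and `≤ b` at `x = 0` -/
def tbL (x : F) (L1 L2 : Submodule K F) (a b : ℕ) : Submodule K F where
  carrier := {s | x ^ b * s ∈ L1 ∧ x⁻¹ ^ a * s ∈ L2}
  zero_mem' := by simp
  add_mem' := by
    intro s t hs ht
    simp only [Set.mem_ofPred_eq, mul_add]
    exact ⟨L1.add_mem hs.1 ht.1, L2.add_mem hs.2 ht.2⟩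
  smul_mem' := by
    intro c s hs
    simp only [Set.mem_ofPred_eq, mul_smul_comm]
    exact ⟨L1.smul_mem c hs.1, L2.smul_mem c hs.2⟩

theorem mem_tbL {x : F} {L1 L2 : Submodule K F} {a b : ℕ} {s : F} :
    s ∈ tbL x L1 L2 a b ↔ x ^ b * s ∈ L1 ∧ x⁻¹ ^ a * s ∈ L2 := Iff.rfl

/-- functions on the special fibre with poles of order `≤ a` at `x̄ = ∞` and `≤ b` at `x̄ = 0` -/
def tbLbar (x : F) (a b : ℕ) : Submodule K F where
  carrier := {t | IsIntegral ↥(Algebra.adjoin K {x}) (x ^ b * t) ∧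
    IsIntegral ↥(Algebra.adjoin K {x⁻¹}) (x⁻¹ ^ a * t)}
  zero_mem' := by simp [isIntegral_zero]
  add_mem' := by
    intro s t hs ht
    simp only [Set.mem_ofPred_eq, mul_add]
    exact ⟨hs.1.add ht.1, hs.2.add ht.2⟩
  smul_mem' := by
    intro c s hs
    simp only [Set.mem_ofPred_eq, mul_smul_comm]
    exact ⟨tb_isIntegral_smul x c hs.1, tb_isIntegral_smul x⁻¹ c hs.2⟩

theorem mem_tbLbar {x : F} {a b : ℕ} {t : F} :
    t ∈ tbLbar (K := K) x a b ↔ IsIntegral ↥(Algebra.adjoin K {x}) (x ^ b * t) ∧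
      IsIntegral ↥(Algebra.adjoin K {x⁻¹}) (x⁻¹ ^ a * t) := Iff.rfl

theorem tbLbar_mono (x : F) {a a' b b' : ℕ} (ha : a ≤ a') (hb : b ≤ b') :
    tbLbar (K := K) x a b ≤ tbLbar x a' b' := by
  intro t ht
  obtain ⟨a'', rfl⟩ := Nat.exists_eq_add_of_le ha
  obtain ⟨b'', rfl⟩ := Nat.exists_eq_add_of_le hb
  refine ⟨?_, ?_⟩
  · rw [pow_add, mul_comm (x ^ b), mul_assoc]
    exact (tb_isIntegral_pow_self x b'').mul ht.1
  · rw [pow_add, mul_comm (x⁻¹ ^ a), mul_assoc]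
    exact (tb_isIntegral_pow_self x⁻¹ a'').mul ht.2

theorem one_mem_tbLbar (x : F) (a b : ℕ) : (1 : F) ∈ tbLbar (K := K) x a b := by
  refine ⟨?_, ?_⟩
  · rw [mul_one]; exact tb_isIntegral_pow_self x b
  · rw [mul_one]; exact tb_isIntegral_pow_self x⁻¹ a

theorem tbLbar_inf_le_left (x : F) (a a' b : ℕ) :
    tbLbar (K := K) x a b ⊓ tbLbar x a' 0 ≤ tbLbar x a 0 :=
  fun _ ht => ⟨ht.2.1, ht.1.2⟩

theorem tbLbar_inf_le_right (x : F) (a b b' : ℕ) :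
    tbLbar (K := K) x a b ⊓ tbLbar x 0 b' ≤ tbLbar x 0 b :=
  fun _ ht => ⟨ht.1.1, ht.2.2⟩

/-- generic dimension count: `V₁ + V₂ = V` -/
theorem tb_sup_eq_of_finrank {V V₁ V₂ V₀ : Submodule K F} [FiniteDimensional K ↥V]
    [FiniteDimensional K ↥V₀]
    (h1 : V₁ ≤ V) (h2 : V₂ ≤ V) (h0 : V₁ ⊓ V₂ ≤ V₀)
    (hdim : Module.finrank K ↥V + Module.finrank K ↥V₀ ≤
      Module.finrank K ↥V₁ + Module.finrank K ↥V₂) : V₁ ⊔ V₂ = V := by
  haveI : FiniteDimensional K ↥V₁ := Submodule.finiteDimensional_of_le h1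
  haveI : FiniteDimensional K ↥V₂ := Submodule.finiteDimensional_of_le h2
  have hle : V₁ ⊔ V₂ ≤ V := sup_le h1 h2
  have hsum := Submodule.finrank_sup_add_finrank_inf_eq V₁ V₂
  have hinf : Module.finrank K ↥(V₁ ⊓ V₂) ≤ Module.finrank K ↥V₀ := Submodule.finrank_mono h0
  exact Submodule.eq_of_le_of_finrank_le hle (by omega)

end Defs

/-- the chart data of CORE' -/
structure TbChart {K F k Fb : Type*} [Field K] [Field F] [Algebra K F] [Field k] [Field Fb]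
    [Algebra k Fb] (d : TbBase K F k Fb) where
  /-- the residue characteristic -/
  ℓ : ℕ
  hℓ : ℓ.Prime
  hℓA : ((ℓ : ℕ) : K) ∈ d.A.nonunits
  hℓ0 : ((ℓ : ℕ) : K) ≠ 0
  /-- the exponent -/
  m : ℕ
  hm : Nat.Coprime m ℓ
  /-- the coordinate function -/
  x : F
  hx : x ∈ d.Ov
  hxi : x⁻¹ ∈ d.Ov
  int1 : ∀ (f : F) (hf : f ∈ d.Ov), IsIntegral ↥(Algebra.adjoin K {x}) f →
    IsIntegral ↥(Algebra.adjoin k {d.res ⟨x, hx⟩}) (d.res ⟨f, hf⟩)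
  int2 : ∀ (f : F) (hf : f ∈ d.Ov), IsIntegral ↥(Algebra.adjoin K {x⁻¹}) f →
    IsIntegral ↥(Algebra.adjoin k {(d.res ⟨x, hx⟩)⁻¹}) (d.res ⟨f, hf⟩)
  /-- the function whose `m`-th root is sought -/
  y : F
  hy : y ∈ d.Ov
  hy1 : d.res ⟨y, hy⟩ = 1
  /-- twisted sections on the chart `x ≠ ∞` -/
  L1 : Submodule K F
  /-- twisted sections on the chart `x ≠ 0` -/
  L2 : Submodule K F
  mul_mem1 : ∀ f s : F, IsIntegral ↥(Algebra.adjoin K {x}) f → s ∈ L1 → f * s ∈ L1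
  mul_mem2 : ∀ f s : F, IsIntegral ↥(Algebra.adjoin K {x⁻¹}) f → s ∈ L2 → f * s ∈ L2
  pow1 : ∀ s ∈ L1, IsIntegral ↥(Algebra.adjoin K {x}) (s ^ m * y)
  pow2 : ∀ s ∈ L2, IsIntegral ↥(Algebra.adjoin K {x⁻¹}) (s ^ m * y)
  exists1 : ∀ s ∈ L1, ∃ a : ℕ, x⁻¹ ^ a * s ∈ L2
  exists2 : ∀ s ∈ L2, ∃ b : ℕ, x ^ b * s ∈ L1
  finL : ∀ a b : ℕ, FiniteDimensional K ↥(tbL x L1 L2 a b)
  finLbar : ∀ a b : ℕ, FiniteDimensional k ↥(tbLbar (K := k) (d.res ⟨x, hx⟩) a b)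
  /-- the degree of `x` -/
  n : ℕ
  /-- `1 - g` -/
  c : ℤ
  /-- the bound beyond which Riemann–Roch is an equality -/
  a0 : ℕ
  dimbar : ∀ a b : ℕ, a0 ≤ a + b →
    (Module.finrank k ↥(tbLbar (K := k) (d.res ⟨x, hx⟩) a b) : ℤ) = ((a + b : ℕ) : ℤ) * n + c
  dimgen : ∀ a b : ℕ, a0 ≤ a + b →
    ((a + b : ℕ) : ℤ) * n + c ≤ (Module.finrank K ↥(tbL x L1 L2 a b) : ℤ)

namespace TbChart

variable {K F k Fb : Type*} [Field K] [Field F] [Algebra K F] [Field k] [Field Fb] [Algebra k Fb]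
variable {d : TbBase K F k Fb} (ch : TbChart d)

/-- `x̄` -/
def xb : Fb := d.res ⟨ch.x, ch.hx⟩

/-- `L(a,b)` -/
def L (a b : ℕ) : Submodule K F := tbL ch.x ch.L1 ch.L2 a b

/-- `L̄(a,b)` -/
def Lbar (a b : ℕ) : Submodule k Fb := tbLbar (K := k) ch.xb a b

instance (a b : ℕ) : FiniteDimensional K ↥(ch.L a b) := ch.finL a b

instance (a b : ℕ) : FiniteDimensional k ↥(ch.Lbar a b) := ch.finLbar a b

theorem res_x_inv : d.res ⟨ch.x⁻¹, ch.hxi⟩ = ch.xb⁻¹ := by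
  rcases eq_or_ne ch.x 0 with h0 | hx0
  · have h2 : ch.x⁻¹ = 0 := by rw [h0, inv_zero]
    rw [xb, d.res_congr ch.hxi h2, d.res_congr ch.hx h0, d.res_zero', inv_zero]
  have hmul : d.res ⟨ch.x, ch.hx⟩ * d.res ⟨ch.x⁻¹, ch.hxi⟩ = 1 := by
    rw [← d.res_mul' ch.hx ch.hxi]
    rw [d.res_congr (d.Ov.mul_mem ch.hx ch.hxi) (mul_inv_cancel₀ hx0)]
    exact d.res_one' _
  exact eq_inv_of_mul_eq_one_right hmul

theorem m_pos : 0 < ch.m := by
  rcases Nat.eq_zero_or_pos ch.m with h0 | h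
  · exfalso
    have h1 := ch.hm
    rw [h0, Nat.coprime_zero_left] at h1
    exact ch.hℓ.one_lt.ne' h1
  · exact h

theorem isIntegral_res_of_mem_L1 {s : F} (hs : s ∈ ch.L1) (hsO : s ∈ d.Ov) :
    IsIntegral ↥(Algebra.adjoin k {ch.xb}) (d.res ⟨s, hsO⟩) := by
  have h1 := ch.int1 (s ^ ch.m * ch.y) (d.Ov.mul_mem (d.Ov.pow_mem hsO _) ch.hy) (ch.pow1 s hs)
  rw [d.res_mul' (d.Ov.pow_mem hsO _) ch.hy, d.res_pow' hsO, ch.hy1, mul_one] at h1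
  exact IsIntegral.of_pow ch.m_pos h1

theorem isIntegral_res_of_mem_L2 {s : F} (hs : s ∈ ch.L2) (hsO : s ∈ d.Ov) :
    IsIntegral ↥(Algebra.adjoin k {ch.xb⁻¹}) (d.res ⟨s, hsO⟩) := by
  have h1 := ch.int2 (s ^ ch.m * ch.y) (d.Ov.mul_mem (d.Ov.pow_mem hsO _) ch.hy) (ch.pow2 s hs)
  rw [d.res_mul' (d.Ov.pow_mem hsO _) ch.hy, d.res_pow' hsO, ch.hy1, mul_one] at h1
  exact IsIntegral.of_pow ch.m_pos h1

theorem resBall_L_le (a b : ℕ) : d.resBall (ch.L a b) ≤ ch.Lbar a b := by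
  rintro _ ⟨s, hs, rfl⟩
  obtain ⟨⟨h1, h2⟩, hsO⟩ := hs
  refine ⟨?_, ?_⟩
  · have := ch.isIntegral_res_of_mem_L1 h1 (d.Ov.mul_mem (d.Ov.pow_mem ch.hx b) hsO)
    rwa [d.res_mul' (d.Ov.pow_mem ch.hx b) hsO, d.res_pow' ch.hx] at this
  · have := ch.isIntegral_res_of_mem_L2 h2 (d.Ov.mul_mem (d.Ov.pow_mem ch.hxi a) hsO)
    rwa [d.res_mul' (d.Ov.pow_mem ch.hxi a) hsO, d.res_pow' ch.hxi, ch.res_x_inv] at this

theorem finrank_Lbar {a b : ℕ} (hab : ch.a0 ≤ a + b) :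
    (Module.finrank k ↥(ch.Lbar a b) : ℤ) = ((a + b : ℕ) : ℤ) * ch.n + ch.c :=
  ch.dimbar a b hab

theorem le_finrank_L {a b : ℕ} (hab : ch.a0 ≤ a + b) :
    ((a + b : ℕ) : ℤ) * ch.n + ch.c ≤ (Module.finrank K ↥(ch.L a b) : ℤ) :=
  ch.dimgen a b hab

/-- reduction `Λ(a,b) → L̄(a,b)` is surjective for `a + b ≥ a₀` -/
theorem resBall_L_eq {a b : ℕ} (hab : ch.a0 ≤ a + b) : d.resBall (ch.L a b) = ch.Lbar a b := by
  refine d.resBall_eq_of_finrank_le _ _ (ch.resBall_L_le a b) ?_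
  have h1 := ch.finrank_Lbar hab
  have h2 := ch.le_finrank_L hab
  have h3 : (Module.finrank k ↥(ch.Lbar a b) : ℤ) ≤ (Module.finrank K ↥(ch.L a b) : ℤ) := by
    rw [h1]; exact h2
  exact_mod_cast h3

theorem L_mono {a a' b b' : ℕ} (ha : a ≤ a') (hb : b ≤ b') : ch.L a b ≤ ch.L a' b' := by
  intro s hs
  obtain ⟨a'', rfl⟩ := Nat.exists_eq_add_of_le ha
  obtain ⟨b'', rfl⟩ := Nat.exists_eq_add_of_le hb
  refine ⟨?_, ?_⟩
  · rw [pow_add, mul_comm (ch.x ^ b), mul_assoc]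
    exact ch.mul_mem1 _ _ (tb_isIntegral_pow_self _ _) hs.1
  · rw [pow_add, mul_comm (ch.x⁻¹ ^ a), mul_assoc]
    exact ch.mul_mem2 _ _ (tb_isIntegral_pow_self _ _) hs.2

theorem Lbar_mono {a a' b b' : ℕ} (ha : a ≤ a') (hb : b ≤ b') : ch.Lbar a b ≤ ch.Lbar a' b' :=
  tbLbar_mono _ ha hb

theorem mem_L1_of_mem_L {a : ℕ} {s : F} (hs : s ∈ ch.L a 0) : s ∈ ch.L1 := by
  have := hs.1
  rwa [pow_zero, one_mul] at this

theorem mem_L2_of_mem_L {b : ℕ} {s : F} (hs : s ∈ ch.L 0 b) : s ∈ ch.L2 := by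
  have := hs.2
  rwa [pow_zero, one_mul] at this

/-- the local generator on the chart `x ≠ ∞` -/
theorem exists_e1 : ∃ e, e ∈ ch.L1 ∧ ∃ he : e ∈ d.Ov, d.res ⟨e, he⟩ = 1 := by
  have h1 : (1 : Fb) ∈ ch.Lbar ch.a0 0 := one_mem_tbLbar _ _ _
  rw [← ch.resBall_L_eq (a := ch.a0) (b := 0) (by omega)] at h1
  obtain ⟨e, he, hres⟩ := h1
  exact ⟨e, ch.mem_L1_of_mem_L he.1, he.2, hres⟩

/-- the local generator on the chart `x ≠ 0` -/
theorem exists_e2 : ∃ e, e ∈ ch.L2 ∧ ∃ he : e ∈ d.Ov, d.res ⟨e, he⟩ = 1 := by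
  have h1 : (1 : Fb) ∈ ch.Lbar 0 ch.a0 := one_mem_tbLbar _ _ _
  rw [← ch.resBall_L_eq (a := 0) (b := ch.a0) (by omega)] at h1
  obtain ⟨e, he, hres⟩ := h1
  exact ⟨e, ch.mem_L2_of_mem_L he.1, he.2, hres⟩

/-- `L̄(a+1,b) = L̄(a,b) + L̄(a+1,0)` for `a ≥ a₀` -/
theorem Lbar_succ_left {a : ℕ} (ha : ch.a0 ≤ a) (b : ℕ) :
    ch.Lbar a b ⊔ ch.Lbar (a + 1) 0 = ch.Lbar (a + 1) b := by
  refine tb_sup_eq_of_finrank (V₀ := ch.Lbar a 0) (ch.Lbar_mono (by omega) le_rfl)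
    (ch.Lbar_mono le_rfl (by omega)) (tbLbar_inf_le_left _ _ _ _) ?_
  have h1 := ch.finrank_Lbar (a := a + 1) (b := b) (by omega)
  have h2 := ch.finrank_Lbar (a := a) (b := 0) (by omega)
  have h3 := ch.finrank_Lbar (a := a) (b := b) (by omega)
  have h4 := ch.finrank_Lbar (a := a + 1) (b := 0) (by omega)
  have h5 : (Module.finrank k ↥(ch.Lbar (a + 1) b) : ℤ) + Module.finrank k ↥(ch.Lbar a 0) ≤
      Module.finrank k ↥(ch.Lbar a b) + Module.finrank k ↥(ch.Lbar (a + 1) 0) := by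
    rw [h1, h2, h3, h4]
    push_cast
    nlinarith
  exact_mod_cast h5

/-- `L̄(a,b+1) = L̄(a,b) + L̄(0,b+1)` for `b ≥ a₀` -/
theorem Lbar_succ_right {b : ℕ} (hb : ch.a0 ≤ b) (a : ℕ) :
    ch.Lbar a b ⊔ ch.Lbar 0 (b + 1) = ch.Lbar a (b + 1) := by
  refine tb_sup_eq_of_finrank (V₀ := ch.Lbar 0 b) (ch.Lbar_mono le_rfl (by omega))
    (ch.Lbar_mono (by omega) le_rfl) (tbLbar_inf_le_right _ _ _ _) ?_
  have h1 := ch.finrank_Lbar (a := a) (b := b + 1) (by omega)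
  have h2 := ch.finrank_Lbar (a := 0) (b := b) (by omega)
  have h3 := ch.finrank_Lbar (a := a) (b := b) (by omega)
  have h4 := ch.finrank_Lbar (a := 0) (b := b + 1) (by omega)
  have h5 : (Module.finrank k ↥(ch.Lbar a (b + 1)) : ℤ) + Module.finrank k ↥(ch.Lbar 0 b) ≤
      Module.finrank k ↥(ch.Lbar a b) + Module.finrank k ↥(ch.Lbar 0 (b + 1)) := by
    rw [h1, h2, h3, h4]
    push_cast
    nlinarith
  exact_mod_cast h5

/-- `Λ(a+1,b) = Λ(a,b) + Λ(a+1,0)` for `a ≥ a₀` -/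
theorem ball_L_succ_left {a : ℕ} (ha : ch.a0 ≤ a) (b : ℕ) :
    d.ball (ch.L (a + 1) b) = d.ball (ch.L a b) ⊔ d.ball (ch.L (a + 1) 0) := by
  refine d.ball_eq_sup_of_resBall _ _ _ (ch.L_mono (by omega) le_rfl)
    (ch.L_mono le_rfl (by omega)) ?_
  rw [ch.resBall_L_eq (a := a + 1) (b := b) (by omega), ch.resBall_L_eq (a := a) (b := b) (by omega),
    ch.resBall_L_eq (a := a + 1) (b := 0) (by omega), ch.Lbar_succ_left ha b]

/-- `Λ(a,b+1) = Λ(a,b) + Λ(0,b+1)` for `b ≥ a₀` -/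
theorem ball_L_succ_right {b : ℕ} (hb : ch.a0 ≤ b) (a : ℕ) :
    d.ball (ch.L a (b + 1)) = d.ball (ch.L a b) ⊔ d.ball (ch.L 0 (b + 1)) := by
  refine d.ball_eq_sup_of_resBall _ _ _ (ch.L_mono le_rfl (by omega))
    (ch.L_mono (by omega) le_rfl) ?_
  rw [ch.resBall_L_eq (a := a) (b := b + 1) (by omega), ch.resBall_L_eq (a := a) (b := b) (by omega),
    ch.resBall_L_eq (a := 0) (b := b + 1) (by omega), ch.Lbar_succ_right hb a]

theorem ball_L_le_left {a : ℕ} (ha : ch.a0 ≤ a) (b : ℕ) :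
    d.ball (ch.L a b) ≤ d.ball (ch.L ch.a0 b) ⊔ d.ball (ch.L a 0) := by
  induction a, ha using Nat.le_induction with
  | base => exact le_sup_left
  | succ a ha ih =>
    rw [ch.ball_L_succ_left ha b]
    refine sup_le (ih.trans (sup_le le_sup_left (le_sup_of_le_right ?_))) le_sup_right
    exact d.ball_mono (ch.L_mono (by omega) le_rfl)

theorem ball_L_le_right {b : ℕ} (hb : ch.a0 ≤ b) (a : ℕ) :
    d.ball (ch.L a b) ≤ d.ball (ch.L a ch.a0) ⊔ d.ball (ch.L 0 b) := by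
  induction b, hb using Nat.le_induction with
  | base => exact le_sup_left
  | succ b hb ih =>
    rw [ch.ball_L_succ_right hb a]
    refine sup_le (ih.trans (sup_le le_sup_left (le_sup_of_le_right ?_))) le_sup_right
    exact d.ball_mono (ch.L_mono le_rfl (by omega))

/-- `Λ(a,b) ⊆ Λ(a₀,a₀) + M₁ + M₂` -/
theorem ball_L_le (a b : ℕ) :
    d.ball (ch.L a b) ≤ d.ball (ch.L ch.a0 ch.a0) ⊔ (d.ball ch.L1 ⊔ d.ball ch.L2) := by
  have h1 : d.ball (ch.L a b) ≤ d.ball (ch.L (max a ch.a0) (max b ch.a0)) :=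
    d.ball_mono (ch.L_mono (le_max_left _ _) (le_max_left _ _))
  refine h1.trans ((ch.ball_L_le_left (le_max_right a ch.a0) _).trans ?_)
  refine sup_le ((ch.ball_L_le_right (le_max_right b ch.a0) _).trans ?_) ?_
  · refine sup_le le_sup_left (le_sup_of_le_right (le_sup_of_le_right ?_))
    exact fun s hs => ⟨ch.mem_L2_of_mem_L hs.1, hs.2⟩
  · refine le_sup_of_le_right (le_sup_of_le_left ?_)
    exact fun s hs => ⟨ch.mem_L1_of_mem_L hs.1, hs.2⟩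

end TbChart

end Fermat.Agent.T1
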