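/-
T1-B (helper9): the lattice layer of CORE', part 3: bounded torsion of `H¹`, the choice of `π`,
and the application of the abstract core `tb_core`:

  `tb_core_lattice : ∃ s ∈ L₁ ⊓ L₂, s ∈ 𝒪 ∧ res s = 1`.
-/
import Fermat.Agent.Lib.T1.Core.Lattice2
import Fermat.Agent.Lib.T1.Core.Abstract

set_option autoImplicit false
set_option linter.style.haveILetI false

namespace Fermat.Agent.T1

namespace TbBase

variable {K F k Fb : Type*} [Field K] [Field F] [Algebra K F] [Field k] [Field Fb] [Algebra k Fb]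
variable (d : TbBase K F k Fb)

/-- every function can be scaled into the Gauss ring by a nonzero element of `A` -/
theorem exists_smul_mem (f : F) : ∃ c : ↥d.A, c ≠ 0 ∧ ((c : ↥d.A) : K) • f ∈ d.Ov := by
  rcases eq_or_ne f 0 with rfl | hf0
  · exact ⟨1, one_ne_zero, by rw [smul_zero]; exact d.Ov.zero_mem⟩
  obtain ⟨c, hc0, hcf, -⟩ := d.normalize f hf0
  by_cases hcA : c ∈ d.A
  · exact ⟨⟨c, hcA⟩, fun h => hc0 (congrArg Subtype.val h), hcf⟩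
  · have hcinv : c⁻¹ ∈ d.A := (d.A.mem_or_inv_mem c).resolve_left hcA
    refine ⟨1, one_ne_zero, ?_⟩
    have h1 : f = ((⟨c⁻¹, hcinv⟩ : ↥d.A) : K) • (c • f) := by
      show f = c⁻¹ • c • f
      rw [smul_smul, inv_mul_cancel₀ hc0, one_smul]
    have h2 := d.smul_mem ⟨c⁻¹, hcinv⟩ hcf
    rw [← h1] at h2
    simpa using h2

/-- an element of the Gauss ring with zero reduction is divisible by a nonzero element of `𝔪_A`,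
which can be chosen to divide a given one -/
theorem exists_dvd_of_res_eq_zero {p₀ : ↥d.A} (hp₀ : p₀ ∈ IsLocalRing.maximalIdeal ↥d.A)
    (hp₀' : p₀ ≠ 0) (f : ↥d.Ov) (hf : d.res f = 0) :
    ∃ p : ↥d.A, p ∈ IsLocalRing.maximalIdeal ↥d.A ∧ p ≠ 0 ∧ p ∣ p₀ ∧ d.toOv p ∣ f := by
  obtain ⟨a, ha, g, hg, hfg⟩ :=
    d.exists_smul_of_res_eq_zero ⊤ (f := (f : F)) ⟨Submodule.mem_top, f.2⟩ hf
  have hdvd : d.toOv a ∣ f := by
    refine ⟨⟨g, hg.2⟩, Subtype.ext ?_⟩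
    rw [Subring.coe_mul, coe_toOv, hfg, Algebra.smul_def]
  rcases eq_or_ne a 0 with rfl | ha0
  · refine ⟨p₀, hp₀, hp₀', dvd_rfl, ?_⟩
    have : f = 0 := by
      obtain ⟨u, hu⟩ := hdvd
      rw [hu, map_zero, zero_mul]
    rw [this]
    exact dvd_zero _
  rcases ValuationRing.dvd_total a p₀ with h | h
  · exact ⟨a, ha, ha0, h, hdvd⟩
  · exact ⟨p₀, hp₀, hp₀', dvd_rfl, (map_dvd d.toOv h).trans hdvd⟩

end TbBase

namespace TbChart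

variable {K F k Fb : Type*} [Field K] [Field F] [Algebra K F] [Field k] [Field Fb] [Algebra k Fb]
variable {d : TbBase K F k Fb} (ch : TbChart d)

/-- the torsion of `H¹ = M₁₂/(M₁ + M₂)` is bounded -/
theorem exists_bound : ∃ c : ↥d.A, c ≠ 0 ∧
    ∀ t ∈ d.ball (ch.L ch.a0 ch.a0 ⊓ (ch.L1 ⊔ ch.L2)), c • t ∈ d.ball ch.L1 ⊔ d.ball ch.L2 := by
  classical
  set W : Submodule K F := ch.L ch.a0 ch.a0 ⊓ (ch.L1 ⊔ ch.L2) with hW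
  set N : Submodule ↥d.A F := d.ball ch.L1 ⊔ d.ball ch.L2 with hN
  have key : ∀ t ∈ d.ball W, ∃ c : ↥d.A, c ≠ 0 ∧ c • t ∈ N := by
    intro t ht
    obtain ⟨u, hu, w, hw, huw⟩ := Submodule.mem_sup.mp ht.1.2
    obtain ⟨cu, hcu0, hcu⟩ := d.exists_smul_mem u
    obtain ⟨cw, hcw0, hcw⟩ := d.exists_smul_mem w
    refine ⟨cu * cw, mul_ne_zero hcu0 hcw0, ?_⟩
    rw [← huw, smul_add]
    refine Submodule.add_mem_sup ?_ ?_
    · rw [mul_comm, mul_smul]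
      exact (d.ball ch.L1).smul_mem cw ⟨ch.L1.smul_mem _ hu, hcu⟩
    · rw [mul_smul]
      exact (d.ball ch.L2).smul_mem cu ⟨ch.L2.smul_mem _ hw, hcw⟩
  choose! c hc using key
  obtain ⟨S, hS⟩ := d.ball_fg W
  have hSW : ∀ s ∈ S, s ∈ d.ball W := fun s hs => hS ▸ Submodule.subset_span hs
  refine ⟨∏ s ∈ S, c s, Finset.prod_ne_zero_iff.mpr (fun s hs => (hc s (hSW s hs)).1), ?_⟩
  intro t ht
  rw [← hS] at ht
  induction ht using Submodule.span_induction with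
  | mem s hs =>
    rw [← Finset.mul_prod_erase S c hs, mul_comm, mul_smul]
    exact N.smul_mem _ (hc s (hSW s hs)).2
  | zero => rw [smul_zero]; exact N.zero_mem
  | add x y _ _ hx hy => rw [smul_add]; exact N.add_mem hx hy
  | smul a x _ hx => rw [smul_comm]; exact N.smul_mem a hx

/-- functions of the Gauss ring regular on the chart `x ≠ ∞` -/
def B1 : Subring ↥d.Ov :=
  (integralClosure ↥(Algebra.adjoin K {ch.x}) F).toSubring.comap d.Ov.subtype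

/-- functions of the Gauss ring regular on the chart `x ≠ 0` -/
def B2 : Subring ↥d.Ov :=
  (integralClosure ↥(Algebra.adjoin K {ch.x⁻¹}) F).toSubring.comap d.Ov.subtype

theorem mem_B1 {f : ↥d.Ov} : f ∈ ch.B1 ↔ IsIntegral ↥(Algebra.adjoin K {ch.x}) (f : F) := Iff.rfl

theorem mem_B2 {f : ↥d.Ov} : f ∈ ch.B2 ↔ IsIntegral ↥(Algebra.adjoin K {ch.x⁻¹}) (f : F) :=
  Iff.rfl

/-- integral sections on the chart `x ≠ ∞` -/
def M1 : AddSubgroup ↥d.Ov := ch.L1.toAddSubgroup.comap d.Ov.subtype.toAddMonoidHom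

/-- integral sections on the chart `x ≠ 0` -/
def M2 : AddSubgroup ↥d.Ov := ch.L2.toAddSubgroup.comap d.Ov.subtype.toAddMonoidHom

theorem mem_M1 {s : ↥d.Ov} : s ∈ ch.M1 ↔ (s : F) ∈ ch.L1 := Iff.rfl

theorem mem_M2 {s : ↥d.Ov} : s ∈ ch.M2 ↔ (s : F) ∈ ch.L2 := Iff.rfl

/-- integral sections on the overlap -/
def M12 : AddSubgroup ↥d.Ov where
  carrier := {s | ∃ a b : ℕ, (s : F) ∈ ch.L a b}
  zero_mem' := ⟨0, 0, (ch.L 0 0).zero_mem⟩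
  add_mem' := by
    rintro s t ⟨a, b, hs⟩ ⟨a', b', ht⟩
    exact ⟨max a a', max b b', (ch.L _ _).add_mem
      (ch.L_mono (le_max_left _ _) (le_max_left _ _) hs)
      (ch.L_mono (le_max_right _ _) (le_max_right _ _) ht)⟩
  neg_mem' := by
    rintro s ⟨a, b, hs⟩
    exact ⟨a, b, (ch.L a b).neg_mem hs⟩

theorem mem_M12 {s : ↥d.Ov} : s ∈ ch.M12 ↔ ∃ a b : ℕ, (s : F) ∈ ch.L a b := Iff.rfl

theorem M1_le_M12 : ch.M1 ≤ ch.M12 := by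
  intro s hs
  obtain ⟨a, ha⟩ := ch.exists1 _ hs
  exact ⟨a, 0, by rw [pow_zero, one_mul]; exact hs, ha⟩

theorem M2_le_M12 : ch.M2 ≤ ch.M12 := by
  intro s hs
  obtain ⟨b, hb⟩ := ch.exists2 _ hs
  exact ⟨0, b, hb, by rw [pow_zero, one_mul]; exact hs⟩

theorem toOv_mem_B1 (p : ↥d.A) : d.toOv p ∈ ch.B1 :=
  isIntegral_algebraMap (x := algebraMap K ↥(Algebra.adjoin K {ch.x}) (p : K))

theorem toOv_mem_B2 (p : ↥d.A) : d.toOv p ∈ ch.B2 :=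
  isIntegral_algebraMap (x := algebraMap K ↥(Algebra.adjoin K {ch.x⁻¹}) (p : K))

theorem coe_toOv_pow_mul (p : ↥d.A) (n : ℕ) (t : ↥d.Ov) :
    ((d.toOv p ^ n * t : ↥d.Ov) : F) = (p ^ n : ↥d.A) • (t : F) := by
  show _ = (((p ^ n : ↥d.A) : ↥d.A) : K) • (t : F)
  rw [Algebra.smul_def]
  simp

theorem mem_M12_of_mul_mem {p : ↥d.A} (hp0 : p ≠ 0) (t : ↥d.Ov) (h : d.toOv p * t ∈ ch.M12) :
    t ∈ ch.M12 := by
  obtain ⟨a, b, hab⟩ := h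
  refine ⟨a, b, ?_⟩
  have hpK : ((p : ↥d.A) : K) ≠ 0 := fun h0 => hp0 (Subtype.ext h0)
  have h1 : ((d.toOv p * t : ↥d.Ov) : F) = ((p : ↥d.A) : K) • (t : F) := by
    rw [Algebra.smul_def]; rfl
  rw [h1] at hab
  have h2 : (t : F) = ((p : ↥d.A) : K)⁻¹ • (((p : ↥d.A) : K) • (t : F)) := by
    rw [smul_smul, inv_mul_cancel₀ hpK, one_smul]
  rw [h2]
  exact (ch.L a b).smul_mem _ hab

theorem mem_sup_iff {s : ↥d.Ov} :
    s ∈ ch.M1 ⊔ ch.M2 ↔ (s : F) ∈ d.ball ch.L1 ⊔ d.ball ch.L2 := by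
  constructor
  · intro hs
    obtain ⟨s₁, hs₁, s₂, hs₂, rfl⟩ := AddSubgroup.mem_sup.mp hs
    rw [Subring.coe_add]
    exact Submodule.add_mem_sup ⟨hs₁, s₁.2⟩ ⟨hs₂, s₂.2⟩
  · intro hs
    obtain ⟨u₁, hu₁, u₂, hu₂, h12⟩ := Submodule.mem_sup.mp hs
    have : s = (⟨u₁, hu₁.2⟩ : ↥d.Ov) + ⟨u₂, hu₂.2⟩ := Subtype.ext h12.symm
    rw [this]
    exact AddSubgroup.add_mem_sup (ch.mem_M1.mpr hu₁.1) (ch.mem_M2.mpr hu₂.1)

/-- bounded `π`-power torsion of `M₁₂/(M₁ + M₂)` -/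
theorem bdd {p : ↥d.A} (hp0 : p ≠ 0) {c : ↥d.A}
    (hc : ∀ t ∈ d.ball (ch.L ch.a0 ch.a0 ⊓ (ch.L1 ⊔ ch.L2)), c • t ∈ d.ball ch.L1 ⊔ d.ball ch.L2)
    {k₀ : ℕ} (hk₀ : c ∣ p ^ k₀) (t : ↥d.Ov) (ht : t ∈ ch.M12) (k : ℕ)
    (hk : d.toOv p ^ k * t ∈ ch.M1 ⊔ ch.M2) : d.toOv p ^ k₀ * t ∈ ch.M1 ⊔ ch.M2 := by
  obtain ⟨a, b, htab⟩ := ht
  rw [ch.mem_sup_iff, coe_toOv_pow_mul] at hk ⊢
  set N : Submodule ↥d.A F := d.ball ch.L1 ⊔ d.ball ch.L2 with hN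
  have ht1 : (t : F) ∈ d.ball (ch.L a b) := ⟨htab, t.2⟩
  obtain ⟨t₀, ht₀, u, hu, htu⟩ := Submodule.mem_sup.mp (ch.ball_L_le a b ht1)
  have h1 : (p ^ k) • t₀ ∈ N := by
    have : (p ^ k) • t₀ = (p ^ k) • (t : F) - (p ^ k) • u := by
      rw [← htu, smul_add]; abel
    rw [this]
    exact N.sub_mem hk (N.smul_mem _ hu)
  have h2 : t₀ ∈ ch.L1 ⊔ ch.L2 := by
    obtain ⟨u₁, hu₁, u₂, hu₂, h12⟩ := Submodule.mem_sup.mp h1
    have hpk : (((p ^ k : ↥d.A) : ↥d.A) : K) ≠ 0 := fun h0 =>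
      pow_ne_zero k hp0 (Subtype.ext h0)
    have h3 : t₀ = (((p ^ k : ↥d.A) : ↥d.A) : K)⁻¹ • u₁ + (((p ^ k : ↥d.A) : ↥d.A) : K)⁻¹ • u₂ := by
      rw [← smul_add, h12]
      show t₀ = _⁻¹ • ((((p ^ k : ↥d.A) : ↥d.A) : K) • t₀)
      rw [smul_smul, inv_mul_cancel₀ hpk, one_smul]
    rw [h3]
    exact Submodule.add_mem_sup (ch.L1.smul_mem _ hu₁.1) (ch.L2.smul_mem _ hu₂.1)
  have h3 : c • t₀ ∈ N := hc t₀ ⟨⟨ht₀.1, h2⟩, ht₀.2⟩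
  obtain ⟨q, hq⟩ := hk₀
  have h4 : (p ^ k₀) • t₀ ∈ N := by
    rw [hq, mul_comm, mul_smul]
    exact N.smul_mem q h3
  rw [← htu, smul_add]
  exact N.add_mem h4 (N.smul_mem _ hu)

/-- **CORE' (lattice form)**: there is a global section of the twisted sheaf which reduces
to `1`. -/
theorem tb_core_lattice :
    ∃ s : F, s ∈ ch.L1 ∧ s ∈ ch.L2 ∧ ∃ h : s ∈ d.Ov, d.res ⟨s, h⟩ = 1 := by
  classical
  obtain ⟨e₁, he1L, he1O, he1⟩ := ch.exists_e1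
  obtain ⟨e₂, he2L, he2O, he2⟩ := ch.exists_e2
  obtain ⟨hℓA, hℓm⟩ := ValuationSubring.mem_nonunits_iff_exists_mem_maximalIdeal.mp ch.hℓA
  set p₀ : ↥d.A := ⟨((ch.ℓ : ℕ) : K), hℓA⟩ with hp₀
  have hp₀0 : p₀ ≠ 0 := fun h => ch.hℓ0 (congrArg Subtype.val h)
  obtain ⟨p₁, hp₁m, hp₁0, hp₁d, hp₁y⟩ := d.exists_dvd_of_res_eq_zero hℓm hp₀0
    ((⟨ch.y, ch.hy⟩ : ↥d.Ov) - 1) (by rw [map_sub, ch.hy1, map_one, sub_self])
  obtain ⟨p₂, hp₂m, hp₂0, hp₂d, hp₂e⟩ := d.exists_dvd_of_res_eq_zero hp₁m hp₁0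
    ((⟨e₁, he1O⟩ : ↥d.Ov) - 1) (by rw [map_sub, he1, map_one, sub_self])
  obtain ⟨p, hpm, hp0, hpd, hpe⟩ := d.exists_dvd_of_res_eq_zero hp₂m hp₂0
    ((⟨e₂, he2O⟩ : ↥d.Ov) - 1) (by rw [map_sub, he2, map_one, sub_self])
  have hπ2 : d.toOv p ∣ d.toOv p₂ := map_dvd d.toOv hpd
  have hπ1 : d.toOv p ∣ d.toOv p₁ := hπ2.trans (map_dvd d.toOv hp₂d)
  have hπ0 : d.toOv p ∣ d.toOv p₀ := hπ1.trans (map_dvd d.toOv hp₁d)
  have hπℓ : d.toOv p ∣ ((ch.ℓ : ℕ) : ↥d.Ov) := by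
    have : d.toOv p₀ = ((ch.ℓ : ℕ) : ↥d.Ov) := by
      apply Subtype.ext
      rw [TbBase.coe_toOv, hp₀]
      simp
    rwa [this] at hπ0
  obtain ⟨c, hc0, hc⟩ := ch.exists_bound
  obtain ⟨k₀, hk₀⟩ := d.arch p hpm c hc0
  obtain ⟨s, ⟨hs1, hs2⟩, hsπ⟩ := tb_core (d.toOv p) ch.ℓ ch.hℓ hπℓ ch.m ch.hm ch.B1 ch.B2
    (ch.toOv_mem_B1 p) (ch.toOv_mem_B2 p) ch.M1 ch.M2 ch.M12 ch.M1_le_M12 ch.M2_le_M12
    (fun b hb s hs => ch.mul_mem1 _ _ hb hs) (fun b hb s hs => ch.mul_mem2 _ _ hb hs)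
    (fun t ht => ch.mem_M12_of_mul_mem hp0 t ht)
    (⟨ch.y, ch.hy⟩ : ↥d.Ov) (hπ1.trans hp₁y)
    ⟨e₁, he1O⟩ ⟨e₂, he2O⟩ he1L he2L (hπ2.trans hp₂e) hpe
    (by
      rw [ch.mem_B1]
      have := ch.pow1 e₁ he1L
      rwa [mul_comm] at this)
    (by
      rw [ch.mem_B2]
      have := ch.pow2 e₂ he2L
      rwa [mul_comm] at this)
    k₀ (fun t ht k hk => ch.bdd hp0 hc hk₀ t ht k hk)
  refine ⟨s, hs1, hs2, s.2, ?_⟩
  obtain ⟨u, hu⟩ := hsπ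
  have h1 : d.res s - 1 = 0 := by
    rw [← map_one d.res, ← map_sub, hu, map_mul, d.res_toOv, (d.resA_eq_zero_iff p).mpr hpm,
      map_zero, zero_mul]
  exact sub_eq_zero.mp h1

end TbChart

end Fermat.Agent.T1
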