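/-
T1-B (helper9): the twisted Riemann–Roch spaces of CORE' in a function field `F / K` (`K`
algebraically closed, `x` a separating generator).

For a divisor `E` put `twL1 x E := {s | ord_v s ≥ -E v for all v with ord_v x ≥ 0}` (sections of
`𝒪(E)` on the chart `x ≠ ∞`); the chart `x ≠ 0` is `twL1 x⁻¹ E`.  Then
  `tbL x (twL1 x E) (twL1 x⁻¹ E) a b = L(E + a (x)_∞ + b (x)_0)`     (`tw_tbL_eq`),
  `tbLbar x a b = L(a (x)_∞ + b (x)_0)`                                 (`tw_tbLbar_eq`),
with the dimension statements `tw_le_finrank_tbL` (Riemann's inequality, `deg E = 0`) and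
`tw_finrank_tbLbar` (Riemann–Roch), and the chart axioms of `TbChart` for `twL1`
(`tw_mul_mem`, `tw_isIntegral_pow_mul`, `tw_exists_pow_mul_mem`).
-/
import Fermat.Agent.Lib.T1.Core.Lattice2
import Fermat.Agent.Lib.T1.GoodRed.PoleIntP
import Fermat.Agent.Lib.CurveP.RiemannRoch

set_option autoImplicit false
set_option linter.style.haveILetI false
set_option linter.unusedSectionVars false

namespace Fermat.Agent.T1

open AlgebraicCurve WithZero IntermediateField Fermat.Agent.Curve Fermat.Agent.Curve.PlaceAux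

variable {K F : Type*} [Field K] [Field F] [Algebra K F]

/-- sections of `𝒪(E)` on the chart where `x` is regular -/
def twL1 (x : F) (E : Divisor K F) : Submodule K F where
  carrier := {s | ∀ v : Place K F, 0 ≤ v.ord x → v.adicValuation s ≤ exp (E v)}
  zero_mem' := by
    intro v _
    simp
  add_mem' := by
    intro f g hf hg v hv
    exact (Valuation.map_add _ _ _).trans (max_le (hf v hv) (hg v hv))
  smul_mem' := by
    intro c f hf v hv
    show v.adicValuation (c • f) ≤ exp (E v)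
    rw [Algebra.smul_def, map_mul]
    exact (mul_le_of_le_one_left' (v.adicValuation_algebraMap_le_one c)).trans (hf v hv)

theorem mem_twL1 {x : F} {E : Divisor K F} {s : F} :
    s ∈ twL1 x E ↔ ∀ v : Place K F, 0 ≤ v.ord x → s = 0 ∨ -E v ≤ v.ord s := by
  show (∀ v : Place K F, 0 ≤ v.ord x → v.adicValuation s ≤ exp (E v)) ↔ _
  exact forall_congr' fun v => imp_congr_right fun _ => v.adicValuation_le_exp_iff

/-- `IntCl(K[x]) · L₁ ⊆ L₁` -/
theorem tw_mul_mem {x : F} {E : Divisor K F} {f s : F}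
    (hf : IsIntegral ↥(Algebra.adjoin K {x}) f) (hs : s ∈ twL1 x E) : f * s ∈ twL1 x E := by
  rw [mem_twL1] at hs ⊢
  intro v hv
  rcases eq_or_ne f 0 with rfl | hf0
  · left; rw [zero_mul]
  rcases hs v hv with rfl | h
  · left; rw [mul_zero]
  rcases eq_or_ne s 0 with rfl | hs0
  · left; rw [mul_zero]
  right
  rw [v.ord_mul hf0 hs0]
  have := ta_ord_nonneg_of_isIntegral hf v hv
  omega

/-- the integral functions are the sections of `𝒪` -/
theorem tw_isIntegral_iff [IsAlgClosed K] {x : F} (hx : IsFunctionFieldGen K F x)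
    [Algebra.IsSeparable K⟮x⟯ F] {f : F} :
    IsIntegral ↥(Algebra.adjoin K {x}) f ↔ f ∈ twL1 x (0 : Divisor K F) := by
  rw [mem_twL1]
  constructor
  · intro hf v hv
    right
    rw [Finsupp.zero_apply, neg_zero]
    exact ta_ord_nonneg_of_isIntegral hf v hv
  · intro h
    refine ta_isIntegral_of_regular hx f (fun v hv => ?_)
    rcases h v hv with rfl | h0
    · rw [v.ord_zero]
    · simpa using h0

section Pow

variable {x : F} {E : Divisor K F} {y : F} {m : ℕ}

/-- `s ∈ L₁ ⟹ sᵐ y` is regular on the chart -/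
theorem tw_isIntegral_pow_mul [IsAlgClosed K] (hx : IsFunctionFieldGen K F x)
    [Algebra.IsSeparable K⟮x⟯ F] (hy : y ≠ 0)
    (hE : ∀ v : Place K F, (m : ℤ) * E v = v.ord y) {s : F} (hs : s ∈ twL1 x E) :
    IsIntegral ↥(Algebra.adjoin K {x}) (s ^ m * y) := by
  rcases eq_or_ne s 0 with rfl | hs0
  · rcases Nat.eq_zero_or_pos m with rfl | hm
    · -- `m = 0`: then `ord y = 0` everywhere
      rw [pow_zero, one_mul]
      refine ta_isIntegral_of_regular hx y (fun v _ => ?_)
      have := hE v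
      simp at this
      omega
    · rw [zero_pow hm.ne', zero_mul]
      exact isIntegral_zero
  refine ta_isIntegral_of_regular hx _ (fun v hv => ?_)
  rw [mem_twL1] at hs
  have h1 := (hs v hv).resolve_left hs0
  rw [v.ord_mul (pow_ne_zero m hs0) hy, ← zpow_natCast, v.ord_zpow, ← hE v]
  have : (0 : ℤ) ≤ (m : ℤ) * (v.ord s + E v) := mul_nonneg (Int.natCast_nonneg m) (by omega)
  linarith

end Pow

/-- a section on the chart `x ≠ ∞` has a pole of finite order at `x = ∞` -/
theorem tw_exists_pow_mul_mem [IsAlgClosed K] {x : F} (hx : IsFunctionFieldGen K F x)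
    [Algebra.IsSeparable K⟮x⟯ F] (E : Divisor K F) {s : F} (hs : s ∈ twL1 x E) :
    ∃ a : ℕ, x⁻¹ ^ a * s ∈ twL1 x⁻¹ E := by
  classical
  have hx0 : x ≠ 0 := fun h0 => hx.transcendental (h0 ▸ isAlgebraic_zero)
  rcases eq_or_ne s 0 with rfl | hs0
  · exact ⟨0, by rw [mul_zero]; exact Submodule.zero_mem _⟩
  have hfin : {v : Place K F | v.ord x < 0}.Finite := CurveP.finite_poles_of hx x
  -- a bound for `-E v - ord s` on the poles
  obtain ⟨a, ha⟩ : ∃ a : ℕ, ∀ v ∈ hfin.toFinset, -E v - v.ord s ≤ (a : ℤ) := by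
    refine ⟨(hfin.toFinset.sup fun v => (-E v - v.ord s).toNat), fun v hv => ?_⟩
    have h1 : (-E v - v.ord s).toNat ≤ hfin.toFinset.sup fun v => (-E v - v.ord s).toNat :=
      Finset.le_sup (f := fun v => (-E v - v.ord s).toNat) hv
    have h2 := Int.self_le_toNat (-E v - v.ord s)
    have h3 : ((-E v - v.ord s).toNat : ℤ) ≤
        ((hfin.toFinset.sup fun v => (-E v - v.ord s).toNat : ℕ) : ℤ) := by exact_mod_cast h1
    omega
  refine ⟨a, ?_⟩
  rw [mem_twL1] at hs ⊢
  intro v hv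
  right
  rw [v.ord_inv] at hv
  rw [v.ord_mul (pow_ne_zero a (inv_ne_zero hx0)) hs0, ← zpow_natCast, v.ord_zpow, v.ord_inv]
  rcases eq_or_lt_of_le (neg_nonneg.mp hv) with h0 | h0
  · have := (hs v (by omega)).resolve_left hs0
    rw [h0]; omega
  · have hmem : v ∈ hfin.toFinset := by
      rw [Set.Finite.mem_toFinset]; exact h0
    have h1 := ha v hmem
    have h2 : (a : ℤ) ≤ (a : ℤ) * -v.ord x := by
      have : (1 : ℤ) ≤ -v.ord x := by omega
      nlinarith [Int.natCast_nonneg a]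
    omega

section RR

variable [IsAlgClosed K] {x : F} (hx : IsFunctionFieldGen K F x) [Algebra.IsSeparable K⟮x⟯ F]

include hx

/-- the divisor `E + a (x)_∞ + b (x)_0` -/
noncomputable def twDiv (E : Divisor K F) (a b : ℕ) : Divisor K F :=
  E + (a : ℤ) • CurveP.RRAux.poleDiv hx x + (b : ℤ) • CurveP.RRAux.poleDiv hx x⁻¹

theorem twDiv_apply (E : Divisor K F) (a b : ℕ) (v : Place K F) :
    twDiv hx E a b v = E v + a * max 0 (-(v.ord x)) + b * max 0 (v.ord x) := by
  rw [twDiv, Finsupp.add_apply, Finsupp.add_apply, Finsupp.smul_apply, Finsupp.smul_apply,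
    CurveP.RRAux.poleDiv_apply, CurveP.RRAux.poleDiv_apply, v.ord_inv, neg_neg, smul_eq_mul,
    smul_eq_mul]

theorem tw_tbL_eq (E : Divisor K F) (a b : ℕ) :
    tbL x (twL1 x E) (twL1 x⁻¹ E) a b = riemannRochSpace (twDiv hx E a b) := by
  have hx0 : x ≠ 0 := fun h0 => hx.transcendental (h0 ▸ isAlgebraic_zero)
  ext s
  rw [mem_tbL, mem_twL1, mem_twL1, mem_riemannRochSpace_iff]
  rcases eq_or_ne s 0 with rfl | hs0
  · simp
  have hxb : x ^ b * s ≠ 0 := mul_ne_zero (pow_ne_zero b hx0) hs0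
  have hxa : x⁻¹ ^ a * s ≠ 0 := mul_ne_zero (pow_ne_zero a (inv_ne_zero hx0)) hs0
  have ho1 : ∀ v : Place K F, v.ord (x ^ b * s) = b * v.ord x + v.ord s := fun v => by
    rw [v.ord_mul (pow_ne_zero b hx0) hs0, ← zpow_natCast, v.ord_zpow]
  have ho2 : ∀ v : Place K F, v.ord (x⁻¹ ^ a * s) = -(a * v.ord x) + v.ord s := fun v => by
    rw [v.ord_mul (pow_ne_zero a (inv_ne_zero hx0)) hs0, ← zpow_natCast, v.ord_zpow, v.ord_inv]
    ring
  constructor
  · rintro ⟨h1, h2⟩ v
    right
    rw [twDiv_apply]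
    rcases le_or_gt 0 (v.ord x) with h0 | h0
    · have := (h1 v h0).resolve_left hxb
      rw [ho1] at this
      rw [max_eq_left (by omega), max_eq_right h0]
      linarith
    · have := (h2 v (by rw [v.ord_inv]; omega)).resolve_left hxa
      rw [ho2] at this
      rw [max_eq_right (by omega), max_eq_left (by omega)]
      linarith
  · intro h
    refine ⟨fun v hv => Or.inr ?_, fun v hv => Or.inr ?_⟩
    · have := (h v).resolve_left hs0
      rw [twDiv_apply, max_eq_left (by omega), max_eq_right hv] at this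
      rw [ho1]; linarith
    · rw [v.ord_inv] at hv
      have := (h v).resolve_left hs0
      rw [twDiv_apply, max_eq_right (by omega), max_eq_left (by omega)] at this
      rw [ho2]; linarith

theorem tw_tbLbar_eq (a b : ℕ) :
    tbLbar (K := K) x a b = riemannRochSpace (twDiv hx (0 : Divisor K F) a b) := by
  haveI := CurveP.isSeparable_adjoin_inv (K := K) x
  rw [← tw_tbL_eq hx]
  ext t
  rw [mem_tbLbar, mem_tbL, tw_isIntegral_iff hx, tw_isIntegral_iff (CurveP.isFunctionFieldGen_inv hx)]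

theorem tw_degree_twDiv {E : Divisor K F} (hE : Divisor.degree E = 0) (a b : ℕ) :
    Divisor.degree (twDiv hx E a b) = ((a + b : ℕ) : ℤ) * Module.finrank K⟮x⟯ F := by
  haveI := CurveP.isSeparable_adjoin_inv (K := K) x
  have h1 := CurveP.RRAux.degree_poleDiv_gen hx
  have h2 := CurveP.RRAux.degree_poleDiv_gen (CurveP.isFunctionFieldGen_inv hx)
  rw [CurveP.adjoin_simple_inv_eq] at h2
  have h3 : CurveP.RRAux.poleDiv hx x⁻¹ = CurveP.RRAux.poleDiv (CurveP.isFunctionFieldGen_inv hx) x⁻¹ :=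
    Finsupp.ext fun v => rfl
  rw [twDiv, map_add, map_add, map_zsmul, map_zsmul, hE, h1, h3, h2]
  push_cast
  simp only [smul_eq_mul]
  ring

theorem tw_finiteDimensional_tbL (E : Divisor K F) (a b : ℕ) :
    FiniteDimensional K ↥(tbL x (twL1 x E) (twL1 x⁻¹ E) a b) := by
  rw [tw_tbL_eq hx]
  exact CurveP.finiteDimensional_riemannRochSpace hx _

theorem tw_finiteDimensional_tbLbar (a b : ℕ) : FiniteDimensional K ↥(tbLbar (K := K) x a b) := by
  rw [tw_tbLbar_eq hx]
  exact CurveP.finiteDimensional_riemannRochSpace hx _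

/-- Riemann's inequality for the twisted spaces -/
theorem tw_le_finrank_tbL {E : Divisor K F} (hE : Divisor.degree E = 0) (a b : ℕ) :
    ((a + b : ℕ) : ℤ) * Module.finrank K⟮x⟯ F + (1 - CurveP.genusR K F) ≤
      (Module.finrank K ↥(tbL x (twL1 x E) (twL1 x⁻¹ E) a b) : ℤ) := by
  rw [tw_tbL_eq hx]
  have h := CurveP.le_ell hx (twDiv hx E a b)
  rw [tw_degree_twDiv hx hE] at h
  rw [CurveP.ell] at h
  linarith

/-- Riemann–Roch for `L̄(a,b)` -/
theorem tw_finrank_tbLbar (a b : ℕ)
    (h : 2 * (CurveP.genusR K F : ℤ) - 2 < ((a + b : ℕ) : ℤ) * Module.finrank K⟮x⟯ F) :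
    (Module.finrank K ↥(tbLbar (K := K) x a b) : ℤ) =
      ((a + b : ℕ) : ℤ) * Module.finrank K⟮x⟯ F + (1 - CurveP.genusR K F) := by
  rw [tw_tbLbar_eq hx]
  have hdeg := tw_degree_twDiv hx (E := (0 : Divisor K F)) (map_zero _) a b
  have h1 := CurveP.ell_eq_of_degree_gt hx (E := twDiv hx (0 : Divisor K F) a b) (by rw [hdeg]; exact h)
  rw [hdeg, CurveP.ell] at h1
  linarith

/-- the divisor `div(y)/m` -/
theorem tw_exists_div {y : F} (hy : y ≠ 0) {m : ℕ} (hm : 0 < m)
    (hdiv : ∀ v : Place K F, (m : ℤ) ∣ v.ord y) :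
    ∃ E : Divisor K F, (∀ v : Place K F, (m : ℤ) * E v = v.ord y) ∧ Divisor.degree E = 0 := by
  refine ⟨(CurveP.divOf hx y).mapRange (fun n => n / (m : ℤ)) (Int.zero_ediv _), ?_, ?_⟩
  · intro v
    rw [Finsupp.mapRange_apply, CurveP.divOf_apply hx hy]
    exact Int.mul_ediv_cancel' (hdiv v)
  · have hm0 : (m : ℤ) ≠ 0 := by exact_mod_cast hm.ne'
    have h1 : (m : ℤ) • (CurveP.divOf hx y).mapRange (fun n => n / (m : ℤ)) (Int.zero_ediv _) =
        CurveP.divOf hx y := by
      ext v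
      rw [Finsupp.smul_apply, Finsupp.mapRange_apply, CurveP.divOf_apply hx hy, smul_eq_mul]
      exact Int.mul_ediv_cancel' (hdiv v)
    have h2 := congrArg Divisor.degree h1
    rw [map_zsmul, CurveP.degree_divOf, smul_eq_mul] at h2
    exact (mul_eq_zero.mp h2).resolve_left hm0

/-- an effective divisor of degree `0` is `0` -/
theorem tw_eq_zero_of_nonneg_of_degree {D : Divisor K F} (h0 : 0 ≤ D)
    (hdeg : Divisor.degree D = 0) : D = 0 := by
  classical
  by_contra hne
  obtain ⟨v, hv⟩ := CurveP.RRAux.exists_lt_of_le_of_ne h0 (Ne.symm hne)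
  have h1 := CurveP.RRAux.degree_mono hv
  rw [CurveP.RRAux.degree_add_single hx, map_zero, hdeg] at h1
  norm_num at h1

/-- **the conclusion of CORE'**: a nonzero global section of the twisted sheaf gives an `m`-th
root of `y` -/
theorem tw_exists_root {y : F} (hy : y ≠ 0) {m : ℕ} (hm : 0 < m) {E : Divisor K F}
    (hE : ∀ v : Place K F, (m : ℤ) * E v = v.ord y) (hE0 : Divisor.degree E = 0)
    {s : F} (hs0 : s ≠ 0) (hs1 : s ∈ twL1 x E) (hs2 : s ∈ twL1 x⁻¹ E) :
    ∃ g : F, g ^ m = y := by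
  have hsL : s ∈ tbL x (twL1 x E) (twL1 x⁻¹ E) 0 0 := by
    rw [mem_tbL, pow_zero, pow_zero, one_mul]
    exact ⟨hs1, hs2⟩
  rw [tw_tbL_eq hx] at hsL
  have hEE : twDiv hx E 0 0 = E := by
    ext v
    rw [twDiv_apply]
    simp
  rw [hEE] at hsL
  have hnn := CurveP.RRAux.add_divOf_nonneg hx hsL hs0
  have hdeg : Divisor.degree (E + CurveP.divOf hx s) = 0 := by
    rw [CurveP.RRAux.degree_add_divOf, hE0]
  have hzero := tw_eq_zero_of_nonneg_of_degree hx hnn hdeg
  have hord : ∀ v : Place K F, E v + v.ord s = 0 := by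
    intro v
    have := congrArg (fun D : Divisor K F => D v) hzero
    simpa [CurveP.divOf_apply hx hs0] using this
  -- `s ^ m * y` is a constant
  have hf0 : s ^ m * y ≠ 0 := mul_ne_zero (pow_ne_zero m hs0) hy
  have hmem : s ^ m * y ∈ riemannRochSpace (0 : Divisor K F) := by
    rw [mem_riemannRochSpace_iff]
    intro v
    right
    rw [Finsupp.zero_apply, neg_zero, v.ord_mul (pow_ne_zero m hs0) hy, ← zpow_natCast,
      v.ord_zpow, ← hE v]
    have := hord v
    have h2 : (m : ℤ) * v.ord s + (m : ℤ) * E v = (m : ℤ) * (E v + v.ord s) := by ring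
    rw [h2, this, mul_zero]
  rw [CurveP.riemannRochSpace_zero hx] at hmem
  obtain ⟨c, hc⟩ := hmem
  rw [Algebra.linearMap_apply] at hc
  obtain ⟨c', hc'⟩ := IsAlgClosed.exists_pow_nat_eq c hm
  refine ⟨algebraMap K F c' / s, ?_⟩
  rw [div_pow, ← map_pow, hc', hc]
  field_simp

end RR

end Fermat.Agent.T1
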