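/-
T1-B (helper9): CORE' for function fields.

`F / K` and `F̄ / k` function fields of one variable over algebraically closed fields, related by
a `TbBase` (valuation ring `A ⊂ K` of rank one over `ℓ`, Gauss ring `𝒪 ⊂ F`, reduction
`res : 𝒪 → F̄`), with a coordinate `x ∈ 𝒪ˣ` which is a separating generator on both fibres, of the
same degree, such that integrality over `K[x^{±1}]` reduces to integrality over `k[x̄^{±1}]` and
`genus(F) ≤ genus(F̄)`.  Then every `y ∈ 𝒪` with `res y = 1` whose divisor is divisible by `m`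
(`m` prime to `ℓ`) is an `m`-th power in `F`:  **reduction is injective on prime-to-`ℓ` torsion**.
-/
import Fermat.Agent.Lib.T1.Core.LatticeMain
import Fermat.Agent.Lib.T1.Core.Twist

set_option autoImplicit false
set_option linter.style.haveILetI false
set_option linter.unusedSectionVars false

namespace Fermat.Agent.T1

open AlgebraicCurve IntermediateField Fermat.Agent.Curve

variable {K F k Fb : Type*} [Field K] [Field F] [Algebra K F] [Field k] [Field Fb] [Algebra k Fb]
  [IsAlgClosed K] [IsAlgClosed k]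

/-- **CORE' for function fields** -/
theorem tb_core_functionField (d : TbBase K F k Fb)
    {ℓ : ℕ} (hℓ : ℓ.Prime) (hℓA : ((ℓ : ℕ) : K) ∈ d.A.nonunits) (hℓ0 : ((ℓ : ℕ) : K) ≠ 0)
    {m : ℕ} (hm : Nat.Coprime m ℓ)
    {x : F} (hx : IsFunctionFieldGen K F x) [Algebra.IsSeparable K⟮x⟯ F]
    (hxO : x ∈ d.Ov) (hxiO : x⁻¹ ∈ d.Ov)
    (hxb : IsFunctionFieldGen k Fb (d.res ⟨x, hxO⟩))
    [Algebra.IsSeparable k⟮d.res ⟨x, hxO⟩⟯ Fb]
    (hdeg : Module.finrank K⟮x⟯ F = Module.finrank k⟮d.res ⟨x, hxO⟩⟯ Fb)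
    (hgenus : CurveP.genusR K F ≤ CurveP.genusR k Fb)
    (int1 : ∀ (f : F) (hf : f ∈ d.Ov), IsIntegral ↥(Algebra.adjoin K {x}) f →
      IsIntegral ↥(Algebra.adjoin k {d.res ⟨x, hxO⟩}) (d.res ⟨f, hf⟩))
    (int2 : ∀ (f : F) (hf : f ∈ d.Ov), IsIntegral ↥(Algebra.adjoin K {x⁻¹}) f →
      IsIntegral ↥(Algebra.adjoin k {(d.res ⟨x, hxO⟩)⁻¹}) (d.res ⟨f, hf⟩))
    {y : F} (hyO : y ∈ d.Ov) (hy1 : d.res ⟨y, hyO⟩ = 1)
    (hdiv : ∀ v : Place K F, (m : ℤ) ∣ v.ord y) :
    ∃ g : F, g ^ m = y := by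
  have hm0 : 0 < m := by
    rcases Nat.eq_zero_or_pos m with h0 | h
    · exfalso
      rw [h0, Nat.coprime_zero_left] at hm
      exact hℓ.one_lt.ne' hm
    · exact h
  have hy0 : y ≠ 0 := by
    rintro rfl
    rw [d.res_zero'] at hy1
    exact zero_ne_one hy1
  haveI hsepinv := CurveP.isSeparable_adjoin_inv (K := K) x
  have hxinv := CurveP.isFunctionFieldGen_inv hx
  obtain ⟨E, hE, hE0⟩ := tw_exists_div hx hy0 hm0 hdiv
  set n := Module.finrank K⟮x⟯ F with hn
  have hnpos : 0 < n := by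
    haveI := hx.finite
    exact Module.finrank_pos
  set gb := CurveP.genusR k Fb with hgb
  let ch : TbChart d :=
    { ℓ := ℓ
      hℓ := hℓ
      hℓA := hℓA
      hℓ0 := hℓ0
      m := m
      hm := hm
      x := x
      hx := hxO
      hxi := hxiO
      int1 := int1
      int2 := int2
      y := y
      hy := hyO
      hy1 := hy1
      L1 := twL1 x E
      L2 := twL1 x⁻¹ E
      mul_mem1 := fun f s hf hs => tw_mul_mem hf hs
      mul_mem2 := fun f s hf hs => tw_mul_mem hf hs
      pow1 := fun s hs => tw_isIntegral_pow_mul hx hy0 hE hs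
      pow2 := fun s hs => tw_isIntegral_pow_mul hxinv hy0 hE hs
      exists1 := fun s hs => tw_exists_pow_mul_mem hx E hs
      exists2 := fun s hs => by
        obtain ⟨b, hb⟩ := tw_exists_pow_mul_mem hxinv E hs
        rw [inv_inv] at hb
        exact ⟨b, hb⟩
      finL := fun a b => tw_finiteDimensional_tbL hx E a b
      finLbar := fun a b => tw_finiteDimensional_tbLbar hxb a b
      n := n
      c := 1 - gb
      a0 := 2 * gb
      dimbar := fun a b hab => by
        have h := tw_finrank_tbLbar hxb a b (by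
          rw [← hdeg]
          have h1 : ((2 * gb : ℕ) : ℤ) ≤ ((a + b : ℕ) : ℤ) := by exact_mod_cast hab
          have h2 : (1 : ℤ) ≤ (n : ℤ) := by exact_mod_cast hnpos
          have h3 : (0 : ℤ) ≤ ((a + b : ℕ) : ℤ) := Int.natCast_nonneg _
          push_cast at h1 ⊢
          nlinarith)
        rw [← hdeg] at h
        exact h
      dimgen := fun a b _ => by
        have h := tw_le_finrank_tbL hx hE0 a b
        have h1 : (CurveP.genusR K F : ℤ) ≤ (gb : ℤ) := by exact_mod_cast hgenus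
        linarith }
  obtain ⟨s, hs1, hs2, hsO, hres⟩ := ch.tb_core_lattice
  have hs0 : s ≠ 0 := by
    rintro rfl
    rw [d.res_zero'] at hres
    exact zero_ne_one hres
  exact tw_exists_root hx hy0 hm0 hE hE0 hs0 hs1 hs2

end Fermat.Agent.T1
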