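/-
T1-B (helper9): **semicontinuity of the genus** from the lattice layer.

In the situation of CORE' (`TbBase` + a coordinate `x` which is a separating generator on both
fibres, of the same degree, with (Int)), the unit ball of `L(a (x)_∞)` reduces injectively
(dimension-preservingly) into `L̄(a (x̄)_∞)`; comparing Riemann's inequality on the generic fibre
with Riemann–Roch on the special fibre gives `genus(F̄) ≤ genus(F)`.
-/
import Fermat.Agent.Lib.T1.Core.CoreFF

set_option autoImplicit false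
set_option linter.style.haveILetI false
set_option linter.unusedSectionVars false

namespace Fermat.Agent.T1

open AlgebraicCurve IntermediateField Fermat.Agent.Curve

variable {K F k Fb : Type*} [Field K] [Field F] [Algebra K F] [Field k] [Field Fb] [Algebra k Fb]

/-- the reduction of the unit ball of a finite-dimensional subspace has at least the same
dimension -/
theorem TbBase.finrank_le_finrank_resBall (d : TbBase K F k Fb) (W : Submodule K F)
    [FiniteDimensional K ↥W] [FiniteDimensional k ↥(d.resBall W)] :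
    Module.finrank K ↥W ≤ Module.finrank k ↥(d.resBall W) := by
  classical
  set r := Module.finrank k ↥(d.resBall W) with hr
  let b : Module.Basis (Fin r) k ↥(d.resBall W) := Module.finBasis k _
  have hlift : ∀ i, ∃ s, ∃ hs : s ∈ d.ball W, d.res ⟨s, hs.2⟩ = ((b i : ↥(d.resBall W)) : Fb) :=
    fun i => (b i).2
  choose s hs hsb using hlift
  set N : Submodule ↥d.A F := Submodule.span ↥d.A (Set.range s) with hN
  have hNW : N ≤ d.ball W := Submodule.span_le.2 (by rintro _ ⟨i, rfl⟩; exact hs i)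
  have hball : d.ball W ≤ N := by
    refine d.ball_le_of_res W N hNW (fun f hf => ?_)
    have hfR : d.res ⟨f, hf.2⟩ ∈ d.resBall W := ⟨f, hf, rfl⟩
    choose a ha using fun i => d.resA_surj (b.repr ⟨_, hfR⟩ i)
    have hmem : ∀ i, ((a i : ↥d.A) : K) • s i ∈ d.Ov := fun i => d.smul_mem (a i) (hs i).2
    refine ⟨∑ i, ((a i : ↥d.A) : K) • s i,
      Submodule.sum_mem _ (fun i _ =>
        Submodule.smul_mem _ (a i) (Submodule.subset_span ⟨i, rfl⟩)), ?_⟩
    rw [d.res_sum' Finset.univ _ hmem]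
    have h1 : ∀ i, d.res ⟨((a i : ↥d.A) : K) • s i, hmem i⟩ =
        (b.repr ⟨_, hfR⟩ i) • ((b i : ↥(d.resBall W)) : Fb) := by
      intro i
      rw [d.res_smul' (a i) (hs i).2, ha i, hsb i]
    rw [Finset.sum_congr rfl (fun i _ => h1 i)]
    have h2 := congrArg (Subtype.val) (b.sum_repr ⟨_, hfR⟩)
    rw [Submodule.coe_sum] at h2
    simpa using h2
  have hWspan : W ≤ Submodule.span K (Set.range s) := by
    intro f hf
    rcases eq_or_ne f 0 with rfl | hf0
    · exact zero_mem _
    obtain ⟨c, hc0, hcf, -⟩ := d.normalize f hf0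
    have h1 : c • f ∈ N := hball ⟨W.smul_mem c hf, hcf⟩
    have h2 : c • f ∈ Submodule.span K (Set.range s) :=
      Submodule.span_le_restrictScalars ↥d.A K (Set.range s) h1
    have h3 : f = c⁻¹ • (c • f) := by rw [smul_smul, inv_mul_cancel₀ hc0, one_smul]
    rw [h3]
    exact Submodule.smul_mem _ _ h2
  haveI : FiniteDimensional K ↥(Submodule.span K (Set.range s)) :=
    FiniteDimensional.span_of_finite K (Set.finite_range s)
  calc Module.finrank K ↥W ≤ Module.finrank K ↥(Submodule.span K (Set.range s)) :=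
        Submodule.finrank_mono hWspan
    _ ≤ Fintype.card (Fin r) := finrank_range_le_card s
    _ = r := Fintype.card_fin r

variable [IsAlgClosed K] [IsAlgClosed k]

/-- **semicontinuity of the genus**: `genus(F̄) ≤ genus(F)` -/
theorem tb_genus_le (d : TbBase K F k Fb)
    {x : F} (hx : IsFunctionFieldGen K F x) [Algebra.IsSeparable K⟮x⟯ F]
    (hxO : x ∈ d.Ov) (hxiO : x⁻¹ ∈ d.Ov)
    (hxb : IsFunctionFieldGen k Fb (d.res ⟨x, hxO⟩))
    [Algebra.IsSeparable k⟮d.res ⟨x, hxO⟩⟯ Fb]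
    (hdeg : Module.finrank K⟮x⟯ F = Module.finrank k⟮d.res ⟨x, hxO⟩⟯ Fb)
    (int1 : ∀ (f : F) (hf : f ∈ d.Ov), IsIntegral ↥(Algebra.adjoin K {x}) f →
      IsIntegral ↥(Algebra.adjoin k {d.res ⟨x, hxO⟩}) (d.res ⟨f, hf⟩))
    (int2 : ∀ (f : F) (hf : f ∈ d.Ov), IsIntegral ↥(Algebra.adjoin K {x⁻¹}) f →
      IsIntegral ↥(Algebra.adjoin k {(d.res ⟨x, hxO⟩)⁻¹}) (d.res ⟨f, hf⟩)) :
    CurveP.genusR k Fb ≤ CurveP.genusR K F := by
  haveI hsepinv := CurveP.isSeparable_adjoin_inv (K := K) x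
  have hxinv := CurveP.isFunctionFieldGen_inv hx
  have hx0 : x ≠ 0 := fun h0 => hx.transcendental (h0 ▸ isAlgebraic_zero)
  set xb := d.res ⟨x, hxO⟩ with hxbdef
  set n := Module.finrank K⟮x⟯ F with hn
  have hnpos : 0 < n := by
    haveI := hx.finite
    exact Module.finrank_pos
  set gb := CurveP.genusR k Fb with hgb
  set g := CurveP.genusR K F with hg
  -- `res (x⁻¹) = x̄⁻¹`
  have hresinv : d.res ⟨x⁻¹, hxiO⟩ = xb⁻¹ := by
    have hmul : d.res ⟨x, hxO⟩ * d.res ⟨x⁻¹, hxiO⟩ = 1 := by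
      rw [← d.res_mul' hxO hxiO]
      rw [d.res_congr (d.Ov.mul_mem hxO hxiO) (mul_inv_cancel₀ hx0)]
      exact d.res_one' _
    exact eq_inv_of_mul_eq_one_right hmul
  set a := 2 * gb with ha
  set W : Submodule K F := tbL x (twL1 x (0 : Divisor K F)) (twL1 x⁻¹ (0 : Divisor K F)) a 0
    with hW
  haveI : FiniteDimensional K ↥W := tw_finiteDimensional_tbL hx 0 a 0
  haveI : FiniteDimensional k ↥(tbLbar (K := k) xb a 0) := tw_finiteDimensional_tbLbar hxb a 0
  -- the reduction of the unit ball lies in `L̄(a, 0)`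
  have hle : d.resBall W ≤ tbLbar (K := k) xb a 0 := by
    rintro _ ⟨s, ⟨⟨h1, h2⟩, hsO⟩, rfl⟩
    refine ⟨?_, ?_⟩
    · rw [pow_zero, one_mul] at h1 ⊢
      exact int1 s hsO ((tw_isIntegral_iff hx).mpr h1)
    · have h3 : IsIntegral ↥(Algebra.adjoin K {x⁻¹}) (x⁻¹ ^ a * s) :=
        (tw_isIntegral_iff hxinv).mpr h2
      have h4 := int2 _ (d.Ov.mul_mem (d.Ov.pow_mem hxiO a) hsO) h3
      rwa [d.res_mul' (d.Ov.pow_mem hxiO a) hsO, d.res_pow' hxiO, hresinv] at h4
  haveI : FiniteDimensional k ↥(d.resBall W) := Submodule.finiteDimensional_of_le hle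
  have h1 := tw_le_finrank_tbL hx (E := (0 : Divisor K F)) (map_zero _) a 0
  have h2 := d.finrank_le_finrank_resBall W
  have h3 : Module.finrank k ↥(d.resBall W) ≤ Module.finrank k ↥(tbLbar (K := k) xb a 0) :=
    Submodule.finrank_mono hle
  have h4 := tw_finrank_tbLbar hxb a 0 (by
    rw [← hdeg]
    have h5 : (1 : ℤ) ≤ (n : ℤ) := by exact_mod_cast hnpos
    have h6 : (0 : ℤ) ≤ (gb : ℤ) := Int.natCast_nonneg _
    push_cast
    nlinarith)
  rw [← hdeg] at h4
  have h7 : (Module.finrank K ↥W : ℤ) ≤ (Module.finrank k ↥(tbLbar (K := k) xb a 0) : ℤ) := by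
    exact_mod_cast h2.trans h3
  have h8 : (gb : ℤ) ≤ (g : ℤ) := by linarith
  exact_mod_cast h8

end Fermat.Agent.T1
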