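/-
T1-B (helper9): the residue degree is at most the generic degree.

In the situation of `TbBase` (`res : 𝒪 → F̄` surjective), if `x ∈ 𝒪` has a transcendental residue
`x̄` and `F / K(x)` is finite, then `[F̄ : k(x̄)] ≤ [F : K(x)]`: lift a `k(x̄)`-independent family,
a `K(x)`-dependency can be normalised to have coefficients in `A[x]` with a nonzero reduction.
-/
import Fermat.Agent.Lib.T1.Core.Lattice1

set_option autoImplicit false
set_option linter.style.haveILetI false
set_option linter.unusedSectionVars false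

namespace Fermat.Agent.T1

open IntermediateField Polynomial

namespace TbBase

variable {K F k Fb : Type*} [Field K] [Field F] [Algebra K F] [Field k] [Field Fb] [Algebra k Fb]
variable (d : TbBase K F k Fb)

/-- evaluation of a polynomial over `A` at a point of `𝒪`, as an element of `𝒪` -/
theorem coe_eval₂_toOv (P : Polynomial ↥d.A) (x : ↥d.Ov) :
    ((Polynomial.eval₂ d.toOv x P : ↥d.Ov) : F) =
      Polynomial.aeval (x : F) (P.map d.A.subtype) := by
  have h := Polynomial.hom_eval₂ P d.toOv d.Ov.subtype x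
  have h2 : d.Ov.subtype.comp d.toOv = (algebraMap K F).comp d.A.subtype := rfl
  rw [h2] at h
  rw [Polynomial.aeval_def, Polynomial.eval₂_map]
  exact h

theorem res_eval₂_toOv (P : Polynomial ↥d.A) (x : ↥d.Ov) :
    d.res (Polynomial.eval₂ d.toOv x P) = Polynomial.aeval (d.res x) (P.map d.resA) := by
  have h := Polynomial.hom_eval₂ P d.toOv d.res x
  have h2 : d.res.comp d.toOv = (algebraMap k Fb).comp d.resA := by
    ext a
    exact d.res_toOv a
  rw [h2] at h
  rw [Polynomial.aeval_def, Polynomial.eval₂_map]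
  exact h

/-- a finite family of polynomials over `K`, not all zero, can be scaled into `A[X]` with a
nonzero reduction -/
theorem exists_scale_polys {ι : Type*} [Fintype ι] (ps : ι → Polynomial K)
    (hps : ∃ i, ps i ≠ 0) :
    ∃ (a : K) (Ps : ι → Polynomial ↥d.A), a ≠ 0 ∧
      (∀ i, (Ps i).map d.A.subtype = Polynomial.C a * ps i) ∧ ∃ i, (Ps i).map d.resA ≠ 0 := by
  classical
  set S : Finset K := Finset.univ.biUnion fun i => (ps i).coeffs with hS
  obtain ⟨i₀, hi₀⟩ := hps
  have hSne : S.Nonempty := by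
    have hne : (ps i₀).coeffs.Nonempty := Polynomial.coeffs_nonempty_iff.mpr hi₀
    obtain ⟨c, hc⟩ := hne
    exact ⟨c, Finset.mem_biUnion.mpr ⟨i₀, Finset.mem_univ _, hc⟩⟩
  obtain ⟨c, hcS, hcmax⟩ := Finset.exists_max_image S d.A.valuation hSne
  obtain ⟨i₁, -, hci₁⟩ := Finset.mem_biUnion.mp hcS
  have hc0 : c ≠ 0 := by
    obtain ⟨n, hn, rfl⟩ := Polynomial.mem_coeffs_iff.mp hci₁
    exact Polynomial.mem_support_iff.mp hn
  have hmem : ∀ i, ∀ n, c⁻¹ * (ps i).coeff n ∈ d.A := by
    intro i n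
    by_cases h0 : (ps i).coeff n = 0
    · rw [h0, mul_zero]
      exact d.A.zero_mem
    · have hin : (ps i).coeff n ∈ S :=
        Finset.mem_biUnion.mpr ⟨i, Finset.mem_univ _, Polynomial.coeff_mem_coeffs h0⟩
      have hle := hcmax _ hin
      rw [← ValuationSubring.valuation_le_one_iff, map_mul, map_inv₀]
      have hvc : d.A.valuation c ≠ 0 := (Valuation.ne_zero_iff _).mpr hc0
      rw [inv_mul_le_iff₀ (zero_lt_iff.mpr hvc), mul_one]
      exact hle
  have hsub : ∀ i, (↑(Polynomial.C c⁻¹ * ps i).coeffs : Set K) ⊆ d.A.toSubring := by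
    intro i y hy
    rw [Finset.mem_coe, Polynomial.mem_coeffs_iff] at hy
    obtain ⟨n, -, rfl⟩ := hy
    rw [Polynomial.coeff_C_mul]
    exact hmem i n
  refine ⟨c⁻¹, fun i => (Polynomial.C c⁻¹ * ps i).toSubring d.A.toSubring (hsub i),
    inv_ne_zero hc0, fun i => ?_, ?_⟩
  · exact Polynomial.map_toSubring _ _ (hsub i)
  · obtain ⟨n, -, hn⟩ := Polynomial.mem_coeffs_iff.mp hci₁
    refine ⟨i₁, fun h => ?_⟩
    have h1 := congrArg (fun P => Polynomial.coeff P n) h
    simp only [Polynomial.coeff_map, Polynomial.coeff_zero] at h1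
    have h2 : ((Polynomial.C c⁻¹ * ps i₁).toSubring d.A.toSubring (hsub i₁)).coeff n =
        (1 : ↥d.A) := by
      apply Subtype.ext
      rw [Polynomial.coeff_toSubring, Polynomial.coeff_C_mul, ← hn]
      exact inv_mul_cancel₀ hc0
    rw [h2, map_one] at h1
    exact one_ne_zero h1

open scoped IntermediateField.algebraAdjoinAdjoin in
/-- **the residue degree is at most the generic degree** -/
theorem finrank_res_le {x : F} [FiniteDimensional ↥K⟮x⟯ F] (hxO : x ∈ d.Ov)
    (hxb : Transcendental k (d.res ⟨x, hxO⟩)) :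
    Module.finrank ↥k⟮d.res ⟨x, hxO⟩⟯ Fb ≤ Module.finrank ↥K⟮x⟯ F := by
  classical
  by_contra hlt
  rw [not_le] at hlt
  set n := Module.finrank ↥K⟮x⟯ F with hn
  set xb := d.res ⟨x, hxO⟩ with hxbdef
  set m := Module.finrank ↥k⟮xb⟯ Fb with hm
  haveI : Module.Finite ↥k⟮xb⟯ Fb := Module.finite_of_finrank_pos (by omega)
  let B : Module.Basis (Fin m) ↥k⟮xb⟯ Fb := Module.finBasis _ _
  have hnm : n + 1 ≤ m := hlt
  set yb : Fin (n + 1) → Fb := fun i => B (Fin.castLE hnm i) with hyb
  have hybli : LinearIndependent ↥k⟮xb⟯ yb :=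
    B.linearIndependent.comp _ (Fin.castLE_injective hnm)
  choose y hy using fun i => d.res_surj (yb i)
  -- the lifts are dependent over `K(x)`, hence over `K[x]`
  have hnli : ¬ LinearIndependent ↥K⟮x⟯ fun i => ((y i : ↥d.Ov) : F) := by
    intro h
    have := h.fintype_card_le_finrank
    rw [Fintype.card_fin] at this
    omega
  rw [← LinearIndependent.iff_fractionRing ↥(Algebra.adjoin K {x}) ↥K⟮x⟯,
    Fintype.linearIndependent_iff] at hnli
  push Not at hnli
  obtain ⟨g, hg0, i₀, hgi₀⟩ := hnli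
  have hpoly : ∀ i, ∃ p : Polynomial K, Polynomial.aeval x p = ((g i : ↥(Algebra.adjoin K {x})) : F) := by
    intro i
    have h : ((g i : ↥(Algebra.adjoin K {x})) : F) ∈ (Polynomial.aeval (R := K) x).range := by
      rw [← Algebra.adjoin_singleton_eq_range_aeval]
      exact (g i).2
    exact h
  choose ps hps using hpoly
  have hps0 : ∃ i, ps i ≠ 0 := by
    refine ⟨i₀, fun h => hgi₀ ?_⟩
    apply Subtype.ext
    rw [← hps i₀, h, map_zero]
    rfl
  obtain ⟨a, Ps, ha0, hPs, i₁, hi₁⟩ := d.exists_scale_polys ps hps0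
  -- the scaled relation, inside `𝒪`
  have hrel : ∑ i, Polynomial.eval₂ d.toOv (⟨x, hxO⟩ : ↥d.Ov) (Ps i) * y i = 0 := by
    apply Subtype.ext
    rw [AddSubmonoidClass.coe_finsetSum]
    have h1 : ∀ i, ((Polynomial.eval₂ d.toOv (⟨x, hxO⟩ : ↥d.Ov) (Ps i) * y i : ↥d.Ov) : F) =
        algebraMap K F a * (g i • ((y i : ↥d.Ov) : F)) := by
      intro i
      rw [Subring.coe_mul, d.coe_eval₂_toOv, hPs i, map_mul, Polynomial.aeval_C, hps i,
        mul_assoc]
      rfl
    rw [Finset.sum_congr rfl fun i _ => h1 i, ← Finset.mul_sum, hg0, mul_zero]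
    rfl
  have hrelb := congrArg d.res hrel
  rw [map_sum, map_zero] at hrelb
  have h2 : ∀ i, d.res (Polynomial.eval₂ d.toOv (⟨x, hxO⟩ : ↥d.Ov) (Ps i) * y i) =
      (⟨Polynomial.aeval xb ((Ps i).map d.resA),
        (Algebra.adjoin_le_iff.mpr (Set.singleton_subset_iff.mpr
          (mem_adjoin_simple_self k xb)) : Algebra.adjoin k {xb} ≤ (k⟮xb⟯).toSubalgebra)
          (by
            rw [Algebra.adjoin_singleton_eq_range_aeval]
            exact ⟨_, rfl⟩)⟩ : ↥k⟮xb⟯) • yb i := by
    intro i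
    rw [map_mul, d.res_eval₂_toOv, hy i]
    rfl
  rw [Finset.sum_congr rfl fun i _ => h2 i] at hrelb
  have h3 := (Fintype.linearIndependent_iff.mp hybli) _ hrelb i₁
  have h4 : Polynomial.aeval xb ((Ps i₁).map d.resA) = 0 := congrArg Subtype.val h3
  exact hi₁ ((transcendental_iff.mp hxb) _ h4)

end TbBase

end Fermat.Agent.T1
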