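/-
T1-B (lead): generic lattice-layer lemmas feeding `tb_core`.

* `tb_bounded_torsion`            : a Noetherian module has bounded `π`-power torsion;
* `tb_bounded_torsion_of_sup`     : if `M₁₂ = Λ ⊔ M₁ ⊔ M₂` with `Λ` finitely generated over a Noetherian ring,
                                    then `M₁₂/(M₁ ⊔ M₂)` has bounded `π`-power torsion (the `hbdd` input of `tb_core`);
* `tb_le_sup_of_res`              : Nakayama step `Λ ≤ Λ' ⊔ Λ''` from the same statement modulo `π`.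
-/
import Mathlib

set_option autoImplicit false

namespace Fermat.Agent.T1

section Bounded

variable {O : Type*} [CommRing O]

/-- A Noetherian module has bounded `π`-power torsion. -/
theorem tb_bounded_torsion (π : O) (H : Type*) [AddCommGroup H] [Module O H] [IsNoetherian O H] :
    ∃ k₀ : ℕ, ∀ (t : H) (k : ℕ), π ^ k • t = 0 → π ^ k₀ • t = 0 := by
  let f : ℕ →o Submodule O H :=
    { toFun := fun k => LinearMap.ker (LinearMap.lsmul O H (π ^ k))
      monotone' := by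
        intro a b hab t ht
        simp only [LinearMap.mem_ker, LinearMap.lsmul_apply] at ht ⊢
        obtain ⟨c, rfl⟩ := Nat.exists_eq_add_of_le hab
        rw [pow_add, mul_comm, mul_smul, ht, smul_zero] }
  obtain ⟨k₀, hk₀⟩ := monotone_stabilizes_iff_noetherian.mpr (inferInstance : IsNoetherian O H) f
  refine ⟨k₀, fun t k ht => ?_⟩
  rcases le_total k k₀ with h | h
  · have : t ∈ f k := by simpa [f] using ht
    have := f.monotone h this
    simpa [f] using this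
  · have : t ∈ f k := by simpa [f] using ht
    rw [← hk₀ k h] at this
    simpa [f] using this

variable [IsNoetherianRing O] {𝒪 : Type*} [AddCommGroup 𝒪] [Module O 𝒪]

/-- If `M₁₂ ≤ Λ ⊔ M₁ ⊔ M₂` with `Λ` finitely generated, then `M₁₂/(M₁ ⊔ M₂)` has bounded
`π`-power torsion. -/
theorem tb_bounded_torsion_of_sup (π : O) (M₁ M₂ M₁₂ Λ : Submodule O 𝒪) (hΛ : Λ.FG)
    (hsup : M₁₂ ≤ Λ ⊔ (M₁ ⊔ M₂)) :
    ∃ k₀ : ℕ, ∀ t ∈ M₁₂, ∀ k : ℕ, π ^ k • t ∈ M₁ ⊔ M₂ → π ^ k₀ • t ∈ M₁ ⊔ M₂ := by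
  -- H := image of Λ in 𝒪 ⧸ (M₁ ⊔ M₂), a finitely generated hence Noetherian module
  set Q := M₁ ⊔ M₂ with hQ
  set H : Submodule O (𝒪 ⧸ Q) := Λ.map Q.mkQ with hH
  have : IsNoetherian O H := isNoetherian_of_fg_of_noetherian H (hΛ.map _)
  obtain ⟨k₀, hk₀⟩ := tb_bounded_torsion π H
  refine ⟨k₀, fun t ht k hk => ?_⟩
  obtain ⟨l, hl, q, hq, rfl⟩ := Submodule.mem_sup.mp (hsup ht)
  have hlH : Q.mkQ l ∈ H := Submodule.mem_map_of_mem hl
  have h1 : π ^ k • (⟨Q.mkQ l, hlH⟩ : H) = 0 := by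
    apply Subtype.ext
    simp only [Submodule.coe_smul, Submodule.coe_zero, ← map_smul]
    rw [Submodule.mkQ_apply, Submodule.Quotient.mk_eq_zero]
    have : π ^ k • l = π ^ k • (l + q) - π ^ k • q := by rw [smul_add]; abel
    rw [this]
    exact Q.sub_mem hk (Q.smul_mem _ hq)
  have h2 := hk₀ _ k h1
  have h3 : Q.mkQ (π ^ k₀ • l) = 0 := by
    have := congrArg Subtype.val h2
    simpa only [Submodule.coe_smul, Submodule.coe_zero, ← map_smul] using this
  rw [Submodule.mkQ_apply, Submodule.Quotient.mk_eq_zero] at h3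
  rw [smul_add]
  exact Q.add_mem h3 (Q.smul_mem _ hq)

end Bounded

section Nakayama

variable {O : Type*} [CommRing O] {𝒪 : Type*} [AddCommGroup 𝒪] [Module O 𝒪]

/-- Nakayama step: if `Λ` is finitely generated, `π` lies in the Jacobson radical, and every element
of `Λ` is congruent modulo `π • Λ` to an element of `Λ' ⊔ Λ''`, then `Λ ≤ Λ' ⊔ Λ''`. -/
theorem tb_le_sup_of_res (π : O) (hπ : π ∈ Ideal.jacobson (⊥ : Ideal O))
    (Λ Λ' Λ'' : Submodule O 𝒪) (hΛ : Λ.FG)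
    (h : ∀ s ∈ Λ, ∃ s' ∈ Λ' ⊔ Λ'', ∃ r ∈ Λ, s = s' + π • r) : Λ ≤ Λ' ⊔ Λ'' := by
  apply Submodule.le_of_le_smul_of_le_jacobson_bot (I := Ideal.span {π}) hΛ
  · rw [Ideal.span_le]
    intro x hx
    rw [Set.mem_singleton_iff] at hx
    subst hx
    exact hπ
  · intro s hs
    obtain ⟨s', hs', r, hr, rfl⟩ := h s hs
    refine Submodule.add_mem_sup hs' ?_
    exact Submodule.smul_mem_smul (Ideal.subset_span rfl) hr

end Nakayama

section Steps

variable {O : Type*} [CommRing O] {𝒪 : Type*} [AddCommGroup 𝒪] [Module O 𝒪]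

/-- Bookkeeping: a bifiltration `Λ a b` with the two "step" relations above `a₀` is contained in
`Λ a₀ a₀ ⊔ (M₁ ⊔ M₂)` as soon as `Λ a 0 ≤ M₁` and `Λ 0 b ≤ M₂`. -/
theorem tb_bifiltration_le (Λ : ℕ → ℕ → Submodule O 𝒪) (M₁ M₂ : Submodule O 𝒪) (a₀ : ℕ)
    (hmono : ∀ a a' b b', a ≤ a' → b ≤ b' → Λ a b ≤ Λ a' b')
    (h1 : ∀ a, Λ a 0 ≤ M₁) (h2 : ∀ b, Λ 0 b ≤ M₂)
    (hstepa : ∀ a b, a₀ ≤ a → Λ (a + 1) b ≤ Λ a b ⊔ Λ (a + 1) 0)
    (hstepb : ∀ b, a₀ ≤ b → Λ a₀ (b + 1) ≤ Λ a₀ b ⊔ Λ 0 (b + 1)) (a b : ℕ) :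
    Λ a b ≤ Λ a₀ a₀ ⊔ (M₁ ⊔ M₂) := by
  -- first reduce a to a₀ (or below), then b
  have hb : ∀ b, Λ a₀ b ≤ Λ a₀ a₀ ⊔ (M₁ ⊔ M₂) := by
    intro b
    rcases le_total b a₀ with h | h
    · exact le_trans (hmono _ _ _ _ le_rfl h) le_sup_left
    · obtain ⟨c, rfl⟩ := Nat.exists_eq_add_of_le h
      induction c with
      | zero => exact le_sup_left
      | succ c ih =>
        refine le_trans (hstepb (a₀ + c) (Nat.le_add_right _ _)) (sup_le (ih (Nat.le_add_right _ _)) ?_)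
        exact le_trans (h2 _) (le_trans le_sup_right le_sup_right)
  rcases le_total a a₀ with h | h
  · exact le_trans (hmono _ _ _ _ h le_rfl) (hb b)
  · obtain ⟨c, rfl⟩ := Nat.exists_eq_add_of_le h
    induction c with
    | zero => exact hb b
    | succ c ih =>
      refine le_trans (hstepa (a₀ + c) b (Nat.le_add_right _ _)) (sup_le (ih (Nat.le_add_right _ _)) ?_)
      exact le_trans (h1 _) (le_trans le_sup_left le_sup_right)

end Steps

end Fermat.Agent.T1
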